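/-
S20 / S21 lower bound (LB): shared definitions.

* `zeroCount`, `IsTameAt`: the vocabulary of the algebra → modular interface theorem
  `exists_omega` (file `Omega.lean`).
* the model of the function field of `X₀(N)` over `ℂ` used by the modular side:
  `FN N = ℂ(j, j_N)` inside `Fld N = Frac (Mero.ring N)`.
-/
import Mathlib
import Fermat.Prelude.Def_AlgebraicCurve_DivisorClassGroup
import Fermat.Agent.S24.MeroOrd

set_option autoImplicit false

noncomputable section

open AlgebraicCurve IntermediateField
open scoped MatrixGroups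

namespace Fermat.Agent.S20.LB

open Fermat.Agent.S24 Fermat.Agent.S24.Mero

/-- Number of places of `F/K` at which `y` has a zero. -/
def zeroCount (K : Type*) {F : Type*} [Field K] [Field F] [Algebra K F] (y : F) : ℕ :=
  Nat.card {v : Place K F // 0 < v.ord y}

/-- The valuative ("tame") property of an element `h` with respect to the coordinate `x`:
`(x - a) h` vanishes wherever `x - a` does, and `x h` vanishes wherever `x` has a pole. -/
def IsTameAt (K : Type*) {F : Type*} [Field K] [Field F] [Algebra K F] (x h : F) : Prop :=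
  ∀ v : Valuation F (WithZero (Multiplicative ℤ)),
    (∀ c : K, c ≠ 0 → v (algebraMap K F c) = 1) →
      (∀ a : K, v (x - algebraMap K F a) < 1 → v ((x - algebraMap K F a) * h) < 1) ∧
      (1 < v x → v (x * h) < 1)

/-- `ℂ`-algebra structure on the fraction field of `Mero.ring N` (constants). -/
instance instAlgebraFld (N : ℕ) : Algebra ℂ (Fld N) :=
  ((algebraMap (ring N) (Fld N)).comp (const N)).toAlgebra

theorem algebraMap_fld (N : ℕ) (c : ℂ) :
    algebraMap ℂ (Fld N) c = algebraMap (ring N) (Fld N) (const N c) := rfl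

/-- `j` as an element of `Fld N`. -/
def jF (N : ℕ) [NeZero N] : Fld N := algebraMap (ring N) (Fld N) (jElt N)

/-- `j(N z)` as an element of `Fld N`. -/
def jNF (N : ℕ) [NeZero N] : Fld N := algebraMap (ring N) (Fld N) (jd N N dvd_rfl)

/-- The model of the function field of `X₀(N)` over `ℂ`: `ℂ(j, j_N)` inside `Fld N`. -/
def FN (N : ℕ) [NeZero N] : IntermediateField ℂ (Fld N) :=
  IntermediateField.adjoin ℂ {jF N, jNF N}

/-- `j` as an element of the model. -/
def xN (N : ℕ) [NeZero N] : FN N :=
  ⟨jF N, IntermediateField.subset_adjoin ℂ _ (Set.mem_insert _ _)⟩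

theorem coe_xN (N : ℕ) [NeZero N] : ((xN N : FN N) : Fld N) = jF N := rfl

/-- `j(N z)` as an element of the model. -/
def yN (N : ℕ) [NeZero N] : FN N :=
  ⟨jNF N, IntermediateField.subset_adjoin ℂ _ (Set.mem_insert_of_mem _ rfl)⟩

theorem coe_yN (N : ℕ) [NeZero N] : ((yN N : FN N) : Fld N) = jNF N := rfl

/-- The embedding of the model attached to `γ`: `f ↦ f ∘ γ`. -/
def emb (N : ℕ) [NeZero N] (γ : SL(2, ℤ)) : FN N →+* Fld N :=
  (actF N γ).toRingHom.comp (algebraMap (FN N) (Fld N))

theorem emb_apply (N : ℕ) [NeZero N] (γ : SL(2, ℤ)) (f : FN N) :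
    emb N γ f = actF N γ (f : Fld N) := rfl

end Fermat.Agent.S20.LB

end
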