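import Mathlib

/-!
# Tame different (piece TAME of the S20/S21 lower bound)

`B` is the integral closure of a Dedekind domain `A` in a finite separable extension `L` of
`K = Frac A`, `p` a maximal ideal of `A` whose residue field has characteristic zero.

* `not_pow_dvd_differentIdeal`: if `P ^ e` exactly divides `pB` then `P ^ e` does not divide
  the different.
* `le_radical_mul`: `pB ≤ rad(pB) * (𝔇 ⊔ pB)`.
* `exists_smul_le_radical_mul_different`: some `s ≡ 1 mod p` has `s • pB ≤ rad(pB) * 𝔇`.
* `exists_smul_mem_radical`: for `h` in the trace dual of `B` there is `s ∉ p` such that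
  `s * π * h ∈ rad(pB)` for every `π ∈ p`.
-/

namespace Fermat.Agent.S20.LB.Tame

open Module Algebra nonZeroDivisors

attribute [local instance] FractionRing.liftAlgebra FractionRing.isScalarTower_liftAlgebra
  Ideal.Quotient.field

section Different

variable (A : Type*) {B : Type*} [CommRing A] [CommRing B] [Algebra A B]
  [IsDedekindDomain A] [IsDedekindDomain B] [IsTorsionFree A B] [Module.Finite A B]

/-- Tame ramification: if `P ^ e` exactly divides `pB` and the residue characteristic is zero,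
then `P ^ e` does not divide the different. -/
theorem not_pow_dvd_differentIdeal
    [Algebra.IsSeparable (FractionRing A) (FractionRing B)]
    {p : Ideal A} [p.IsMaximal] [CharZero (A ⧸ p)] (P Q : Ideal B) (e : ℕ)
    (hPtop : P ^ e ≠ ⊤)
    (hPQ : IsCoprime (P ^ e) Q) (hP : P ^ e * Q = Ideal.map (algebraMap A B) p) :
    ¬ P ^ e ∣ differentIdeal A B := by
  let : Algebra (A ⧸ p) (B ⧸ Q) := Ideal.Quotient.algebraQuotientOfLEComap (by
      rw [← Ideal.map_le_iff_le_comap, ← hP]
      exact Ideal.mul_le_right)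
  let : Algebra (A ⧸ p) (B ⧸ P ^ e) := Ideal.Quotient.algebraQuotientOfLEComap (by
      rw [← Ideal.map_le_iff_le_comap, ← hP]
      exact Ideal.mul_le_left)
  have : IsScalarTower A (A ⧸ p) (B ⧸ Q) := .of_algebraMap_eq' rfl
  have : IsScalarTower A (A ⧸ p) (B ⧸ P ^ e) := .of_algebraMap_eq' rfl
  have : Module.Finite (A ⧸ p) (B ⧸ Q) :=
    Module.Finite.of_restrictScalars_finite A (A ⧸ p) (B ⧸ Q)
  have : Module.Finite (A ⧸ p) (B ⧸ P ^ e) :=
    Module.Finite.of_restrictScalars_finite A (A ⧸ p) (B ⧸ P ^ e)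
  have : Nontrivial (B ⧸ P ^ e) := Ideal.Quotient.nontrivial_iff.mpr hPtop
  let e' : (B ⧸ p.map (algebraMap A B)) ≃ₐ[A ⧸ p] ((B ⧸ P ^ e) × B ⧸ Q) :=
    { __ := (Ideal.quotEquivOfEq hP.symm).trans (Ideal.quotientMulEquivQuotientProd (P ^ e) Q hPQ),
      commutes' := Quotient.ind fun _ ↦ rfl }
  obtain ⟨y, hy⟩ := Ideal.Quotient.mk_surjective (e'.symm (1, 0))
  refine not_dvd_differentIdeal_of_intTrace_not_mem A (P ^ e) Q hP y ?_ ?_
  · have := congr((e' $hy).2)
    simp at this
    simpa [e', Ideal.Quotient.eq_zero_iff_mem] using this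
  · rw [← Ideal.Quotient.eq_zero_iff_mem, ← Algebra.trace_quotient_eq_of_isDedekindDomain,
      hy, Algebra.trace_eq_of_algEquiv, Algebra.trace_prod_apply]
    have h1 : Algebra.trace (A ⧸ p) (B ⧸ P ^ e) 1 = (Module.finrank (A ⧸ p) (B ⧸ P ^ e) : A ⧸ p) := by
      rw [← (algebraMap (A ⧸ p) (B ⧸ P ^ e)).map_one, Algebra.trace_algebraMap]
      simp
    simp only [map_zero, add_zero, h1]
    have hpos : 0 < Module.finrank (A ⧸ p) (B ⧸ P ^ e) := Module.finrank_pos
    exact_mod_cast hpos.ne'

/-- Tame ramification, ideal form: `rad(pB) * (𝔇 + pB) ⊇ pB`. -/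
theorem le_radical_mul [Algebra.IsSeparable (FractionRing A) (FractionRing B)]
    {p : Ideal A} [p.IsMaximal] [CharZero (A ⧸ p)] (hp0 : p ≠ ⊥) :
    p.map (algebraMap A B) ≤
      (p.map (algebraMap A B)).radical * (differentIdeal A B ⊔ p.map (algebraMap A B)) := by
  set I := p.map (algebraMap A B) with hI
  have hI0 : I ≠ ⊥ :=
    (Ideal.map_eq_bot_iff_of_injective (FaithfulSMul.algebraMap_injective A B)).not.mpr hp0
  set G := differentIdeal A B ⊔ I with hG
  obtain ⟨H, hH⟩ : G ∣ I := Ideal.dvd_iff_le.mpr le_sup_right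
  have key : H ≤ I.radical := by
    rw [Ideal.radical_eq_sInf]
    refine le_sInf ?_
    rintro P ⟨hIP, hPprime⟩
    by_contra hHP
    have hP0 : P ≠ ⊥ := fun h => hI0 (le_bot_iff.mp (h ▸ hIP))
    have hPp : Prime P := Ideal.prime_of_isPrime hP0 hPprime
    have hPmax : P.IsMaximal := hPprime.isMaximal hP0
    obtain ⟨e, Q, hQ, hIeq⟩ :=
      WfDvdMonoid.max_power_factor' (α := Ideal B) (a₀ := I) (x := P) hI0 hPp.not_isUnit
    have he : e ≠ 0 := by
      rintro rfl
      rw [pow_zero, one_mul] at hIeq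
      exact hQ (hIeq ▸ Ideal.dvd_iff_le.mpr hIP)
    have hdvd : P ^ e ∣ G := by
      refine hPp.pow_dvd_of_dvd_mul_right e (fun h => hHP (Ideal.dvd_iff_le.mp h)) ?_
      rw [← hH, hIeq]; exact dvd_mul_right _ _
    have hD : P ^ e ∣ differentIdeal A B :=
      Ideal.dvd_iff_le.mpr (le_sup_left.trans (Ideal.dvd_iff_le.mp hdvd))
    have hcop : IsCoprime (P ^ e) Q := by
      refine IsCoprime.pow_left ?_
      rw [Ideal.isCoprime_iff_sup_eq]
      by_contra hne
      have : P = P ⊔ Q := hPmax.eq_of_le hne le_sup_left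
      exact hQ (Ideal.dvd_iff_le.mpr (this ▸ le_sup_right))
    have htop : P ^ e ≠ ⊤ := fun h => hPprime.ne_top (top_le_iff.mp (h ▸ Ideal.pow_le_self he))
    exact not_pow_dvd_differentIdeal A P Q e htop hcop hIeq.symm hD
  calc I = G * H := hH
    _ ≤ G * I.radical := Ideal.mul_mono_right key
    _ = I.radical * G := mul_comm _ _

/-- There is `s ≡ 1 mod p` with `s • pB ⊆ rad(pB) * 𝔇`. -/
theorem exists_smul_le_radical_mul_different
    [Algebra.IsSeparable (FractionRing A) (FractionRing B)]
    {p : Ideal A} [p.IsMaximal] [CharZero (A ⧸ p)] (hp0 : p ≠ ⊥) :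
    ∃ s : A, s - 1 ∈ p ∧ ∀ x ∈ p.map (algebraMap A B),
      s • x ∈ (p.map (algebraMap A B)).radical * differentIdeal A B := by
  set I := p.map (algebraMap A B) with hI
  set R := I.radical with hR
  set J := R * differentIdeal A B with hJ
  have ha : I ≤ J ⊔ R * I := by
    have := le_radical_mul A (B := B) (p := p) hp0
    rwa [← hI, ← hR, Ideal.mul_sup, ← hJ] at this
  have hb : ∀ k : ℕ, I ≤ J ⊔ R ^ (k + 1) * I := by
    intro k
    induction k with
    | zero => simpa using ha
    | succ k ih =>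
      refine ih.trans (sup_le le_sup_left ?_)
      calc R ^ (k + 1) * I ≤ R ^ (k + 1) * (J ⊔ R * I) := Ideal.mul_mono_right ha
        _ = R ^ (k + 1) * J ⊔ R ^ (k + 1) * (R * I) := Ideal.mul_sup _ _ _
        _ ≤ J ⊔ R ^ (k + 1 + 1) * I := by
          refine sup_le_sup Ideal.mul_le_right ?_
          rw [pow_succ (R) (k + 1), mul_assoc]
  have : IsNoetherianRing A := inferInstance
  have : IsNoetherian A B := isNoetherian_of_isNoetherianRing_of_finite A B
  have : IsNoetherianRing B := isNoetherianRing_iff.mpr (isNoetherian_of_tower A inferInstance)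
  obtain ⟨k, hk⟩ := Ideal.exists_radical_pow_le_of_fg I (IsNoetherian.noetherian _)
  have hc : I ≤ J ⊔ I * I := by
    refine (hb k).trans (sup_le_sup le_rfl (Ideal.mul_mono_left ?_))
    exact (Ideal.pow_le_pow_right (Nat.le_succ k)).trans hk
  -- Nakayama in the quotient `B ⧸ J`
  let J' : Submodule A B := J.restrictScalars A
  let I' : Submodule A B := I.restrictScalars A
  let N : Submodule A (B ⧸ J') := I'.map J'.mkQ
  have hNfg : N.FG := (IsNoetherian.noetherian I').map _
  have hN : N ≤ p • N := by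
    rintro _ ⟨x, hx, rfl⟩
    obtain ⟨j, hj, y, hy, rfl⟩ := Submodule.mem_sup.mp (hc hx)
    have hy' : y ∈ p • I' := by
      have := Ideal.smul_restrictScalars (R := A) (S := B) p I
      rw [← this]
      exact hy
    have h1 : J'.mkQ (j + y) = J'.mkQ y := by
      have h0 : J'.mkQ j = 0 := by
        rw [Submodule.mkQ_apply]; exact (Submodule.Quotient.mk_eq_zero J').mpr hj
      rw [map_add, h0, zero_add]
    rw [h1, ← Submodule.map_smul'']
    exact Submodule.mem_map_of_mem hy'
  obtain ⟨r, hr1, hr⟩ :=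
    Submodule.exists_sub_one_mem_and_smul_eq_zero_of_fg_of_le_smul p N hNfg hN
  refine ⟨r, hr1, fun x hx => ?_⟩
  have := hr (J'.mkQ x) (Submodule.mem_map_of_mem hx)
  rw [← map_smul] at this
  exact (Submodule.Quotient.mk_eq_zero J').mp this

end Different

section Main

open FractionalIdeal in
/-- **Tame different, element form.** Let `B` be the integral closure of the Dedekind domain `A`
in a finite separable extension `L` of `K = Frac A`, `p` a maximal ideal of `A` of residue
characteristic zero, and `h : L` in the trace dual of `B`. Then there is `s ∉ p` with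
`s * π * h ∈ rad(pB)` for every `π ∈ p`. -/
theorem exists_smul_mem_radical (A K L B : Type*) [CommRing A] [IsDedekindDomain A] [Field K]
    [Algebra A K] [IsFractionRing A K] [Field L] [Algebra K L] [Algebra A L] [IsScalarTower A K L]
    [FiniteDimensional K L] [Algebra.IsSeparable K L] [CommRing B] [Algebra A B] [Algebra B L]
    [IsScalarTower A B L] [IsIntegralClosure B A L]
    (p : Ideal A) [p.IsMaximal] (hp0 : p ≠ ⊥) (hchar : ∀ n : ℕ, n ≠ 0 → (n : A) ∉ p)
    (h : L) (hh : ∀ b : B, Algebra.trace K L (h * algebraMap B L b) ∈ (algebraMap A K).range) :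
    ∃ s : A, s ∉ p ∧ ∀ π ∈ p, ∃ b : B, b ∈ (p.map (algebraMap A B)).radical ∧
      algebraMap A L (s * π) * h = algebraMap B L b := by
  have : IsDomain B :=
    (IsIntegralClosure.equiv A B L (integralClosure A L)).toMulEquiv.isDomain (integralClosure A L)
  have : IsDedekindDomain B := IsIntegralClosure.isDedekindDomain A K L B
  have : IsFractionRing B L := IsIntegralClosure.isFractionRing_of_finite_extension A K L B
  have : Module.Finite A B := IsIntegralClosure.finite A K L B
  have : IsTorsionFree A L := .trans_faithfulSMul A K L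
  have : IsTorsionFree A B := IsIntegralClosure.isTorsionFree A L
  have : CharZero (A ⧸ p) := by
    refine charZero_of_inj_zero fun n hn => ?_
    by_contra hn0
    have : ((n : A) : A ⧸ p) = 0 := by simpa using hn
    exact hchar n hn0 (Ideal.Quotient.eq_zero_iff_mem.mp this)
  have H : RingHom.comp (algebraMap (FractionRing A) (FractionRing B))
      ↑(FractionRing.algEquiv A K).symm.toRingEquiv =
        RingHom.comp ↑(FractionRing.algEquiv B L).symm.toRingEquiv (algebraMap K L) := by
    apply IsLocalization.ringHom_ext A⁰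
    ext
    simp only [RingHom.coe_comp, RingHom.coe_coe,
      AlgEquiv.coe_ringEquiv, Function.comp_apply, AlgEquiv.commutes,
      ← IsScalarTower.algebraMap_apply]
    rw [IsScalarTower.algebraMap_apply A B L, AlgEquiv.commutes, ← IsScalarTower.algebraMap_apply]
  have : Algebra.IsSeparable (FractionRing A) (FractionRing B) :=
    Algebra.IsSeparable.of_equiv_equiv _ _ H
  -- Step 1: `h * 𝔇 ⊆ B`
  have h10 : (1 : FractionalIdeal B⁰ L) ≠ 0 := one_ne_zero
  have step1 : ∀ d ∈ differentIdeal A B, ∃ b : B, algebraMap B L b = h * algebraMap B L d := by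
    intro d hd
    have hmem : h ∈ dual A K (1 : FractionalIdeal B⁰ L) := by
      rw [mem_dual h10]
      intro a ha
      obtain ⟨b, rfl⟩ := (mem_one_iff _).mp ha
      exact hh b
    have hd' : algebraMap B L d ∈ (dual A K (1 : FractionalIdeal B⁰ L))⁻¹ := by
      rw [← coeIdeal_differentIdeal A K L B]
      exact mem_coeIdeal_of_mem _ hd
    have := mul_mem_mul hmem hd'
    rw [mul_inv_cancel₀ (dual_ne_zero A K h10)] at this
    obtain ⟨b, hb⟩ := (mem_one_iff _).mp this
    exact ⟨b, hb⟩
  -- Step 2: `h * (rad(pB) * 𝔇) ⊆ rad(pB)`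
  have step2 : ∀ z ∈ (p.map (algebraMap A B)).radical * differentIdeal A B,
      ∃ b : B, b ∈ (p.map (algebraMap A B)).radical ∧ algebraMap B L z * h = algebraMap B L b := by
    intro z hz
    refine Submodule.mul_induction_on hz ?_ ?_
    · intro r hr d hd
      obtain ⟨b, hb⟩ := step1 d hd
      refine ⟨r * b, Ideal.mul_mem_right _ _ hr, ?_⟩
      rw [map_mul, map_mul, hb]; ring
    · rintro x y ⟨b1, hb1, e1⟩ ⟨b2, hb2, e2⟩
      exact ⟨b1 + b2, Ideal.add_mem _ hb1 hb2, by rw [map_add, map_add, add_mul, e1, e2]⟩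
  obtain ⟨s, hs1, hs⟩ := exists_smul_le_radical_mul_different A (B := B) (p := p) hp0
  refine ⟨s, fun hsp => ?_, fun π hπ => ?_⟩
  · have : (1 : A) ∈ p := by
      have := p.sub_mem hsp hs1
      simpa using this
    exact (Ideal.IsMaximal.ne_top ‹_›) ((Ideal.eq_top_iff_one p).mpr this)
  · obtain ⟨b, hb, e⟩ := step2 _ (hs _ (Ideal.mem_map_of_mem _ hπ))
    refine ⟨b, hb, ?_⟩
    rw [← e, Algebra.smul_def, ← map_mul, ← IsScalarTower.algebraMap_apply]

end Main

end Fermat.Agent.S20.LB.Tame
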