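/-
S20/S21 lower bound, piece CUSP/DICT (abstract valuation part): how a valuation `w` which is
`≤ 1` on a base ring `A` and `< 1` on a maximal ideal `p` of `A` sees the output of the tameness
theorem (`Fermat.Agent.S20.LB.Tame.exists_smul_mem_radical`); and valuations of rational
functions of an element with a pole.  Mathlib only.
-/
import Mathlib

set_option autoImplicit false

namespace Fermat.Agent.S20.LB.ValTame

open Polynomial

section Tame

variable {A L Ω Γ₀ : Type*} [CommRing A] [Field L] [Algebra A L] [Field Ω]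
  [LinearOrderedCommGroupWithZero Γ₀]

/-- Elements integral over a ring on which `w ≤ 1` have `w ≤ 1`. -/
theorem val_le_one_of_isIntegral (ι : L →+* Ω) (w : Valuation Ω Γ₀)
    (hA : ∀ a : A, w (ι (algebraMap A L a)) ≤ 1) {x : L} (hx : IsIntegral A x) :
    w (ι x) ≤ 1 := by
  set v : Valuation L Γ₀ := w.comap ι with hv
  have hA' : ∀ a : A, algebraMap A L a ∈ v.integer := fun a => hA a
  let φ : A →+* v.integer := (algebraMap A L).codRestrict v.integer hA'
  obtain ⟨p, hm, hp⟩ := hx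
  have hint : IsIntegral v.integer x := by
    refine ⟨p.map φ, hm.map φ, ?_⟩
    rw [eval₂_map]
    exact hp
  exact (Valuation.integer.integers v).isIntegral_iff_v_le_one.mp hint

/-- Elements outside the maximal ideal `p` have `w = 1`. -/
theorem val_eq_one_of_notMem (ι : L →+* Ω) (w : Valuation Ω Γ₀) (p : Ideal A) [p.IsMaximal]
    (hA : ∀ a : A, w (ι (algebraMap A L a)) ≤ 1)
    (hp : ∀ π ∈ p, w (ι (algebraMap A L π)) < 1) {s : A} (hs : s ∉ p) :
    w (ι (algebraMap A L s)) = 1 := by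
  refine le_antisymm (hA s) ?_
  obtain ⟨y, i, hi, hyi⟩ := Ideal.IsMaximal.exists_inv (I := p) inferInstance hs
  by_contra hlt
  push Not at hlt
  have h1 : w (ι (algebraMap A L (y * s))) < 1 := by
    rw [map_mul, map_mul, map_mul]
    calc w (ι (algebraMap A L y)) * w (ι (algebraMap A L s))
        ≤ 1 * w (ι (algebraMap A L s)) := mul_le_mul_left (hA y) _
      _ < 1 := by rw [one_mul]; exact hlt
  have h2 : w (ι (algebraMap A L (y * s + i))) < 1 := by
    rw [map_add, map_add]
    exact lt_of_le_of_lt (w.map_add _ _) (max_lt h1 (hp i hi))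
  rw [hyi, map_one, map_one, map_one] at h2
  exact lt_irrefl _ h2

variable {B : Type*} [CommRing B] [Algebra A B] [Algebra B L] [IsScalarTower A B L]
  [Algebra.IsIntegral A B]

/-- Elements of an integral extension `B` of `A` have `w ≤ 1`. -/
theorem val_le_one_of_integral_algebra (ι : L →+* Ω) (w : Valuation Ω Γ₀)
    (hA : ∀ a : A, w (ι (algebraMap A L a)) ≤ 1) (b : B) : w (ι (algebraMap B L b)) ≤ 1 :=
  val_le_one_of_isIntegral ι w hA ((Algebra.IsIntegral.isIntegral (R := A) b).algebraMap)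

/-- Elements of `p B` have `w < 1`. -/
theorem val_lt_one_of_mem_map (ι : L →+* Ω) (w : Valuation Ω Γ₀) (p : Ideal A)
    (hA : ∀ a : A, w (ι (algebraMap A L a)) ≤ 1)
    (hp : ∀ π ∈ p, w (ι (algebraMap A L π)) < 1) {b : B} (hb : b ∈ p.map (algebraMap A B)) :
    w (ι (algebraMap B L b)) < 1 := by
  rw [Ideal.map] at hb
  induction hb using Submodule.span_induction with
  | mem x hx =>
    obtain ⟨π, hπ, rfl⟩ := hx
    rw [← IsScalarTower.algebraMap_apply]
    exact hp π hπ
  | zero => simp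
  | add x y _ _ hx hy =>
    rw [map_add, map_add]
    exact lt_of_le_of_lt (w.map_add _ _) (max_lt hx hy)
  | smul a x _ hx =>
    rw [smul_eq_mul, map_mul, map_mul, map_mul]
    calc w (ι (algebraMap B L a)) * w (ι (algebraMap B L x))
        ≤ 1 * w (ι (algebraMap B L x)) :=
          mul_le_mul_left (val_le_one_of_integral_algebra ι w hA a) _
      _ < 1 := by rw [one_mul]; exact hx

/-- Elements of the radical of `p B` have `w < 1`. -/
theorem val_lt_one_of_mem_radical (ι : L →+* Ω) (w : Valuation Ω Γ₀) (p : Ideal A)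
    (hA : ∀ a : A, w (ι (algebraMap A L a)) ≤ 1)
    (hp : ∀ π ∈ p, w (ι (algebraMap A L π)) < 1) {b : B}
    (hb : b ∈ (p.map (algebraMap A B)).radical) : w (ι (algebraMap B L b)) < 1 := by
  obtain ⟨k, hk⟩ := hb
  have h1 := val_lt_one_of_mem_map ι w p hA hp hk
  rw [map_pow, map_pow, map_pow] at h1
  by_contra hcon
  push Not at hcon
  exact absurd h1 (not_lt.mpr (one_le_pow₀ hcon))

/-- **Valuation form of tameness.**  If `w ≤ 1` on `A`, `w < 1` on the maximal ideal `p`, and `h`
satisfies the conclusion of `Tame.exists_smul_mem_radical`, then `w (π h) < 1` for `π ∈ p`. -/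
theorem val_lt_one_of_tame (ι : L →+* Ω) (w : Valuation Ω Γ₀) (p : Ideal A) [p.IsMaximal]
    (hA : ∀ a : A, w (ι (algebraMap A L a)) ≤ 1)
    (hp : ∀ π ∈ p, w (ι (algebraMap A L π)) < 1) (h : L)
    (htame : ∃ s : A, s ∉ p ∧ ∀ π ∈ p, ∃ b : B, b ∈ (p.map (algebraMap A B)).radical ∧
      algebraMap A L (s * π) * h = algebraMap B L b) :
    ∀ π ∈ p, w (ι (algebraMap A L π * h)) < 1 := by
  obtain ⟨s, hs, hsπ⟩ := htame
  intro π hπ
  obtain ⟨b, hb, hbe⟩ := hsπ π hπ
  have h1 := val_lt_one_of_mem_radical ι w p hA hp hb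
  have h2 := val_eq_one_of_notMem ι w p hA hp hs
  have h3 : ι (algebraMap B L b) = ι (algebraMap A L s) * ι (algebraMap A L π * h) := by
    rw [← hbe, map_mul (algebraMap A L), mul_assoc, map_mul]
  rw [h3, map_mul, h2, one_mul] at h1
  exact h1

end Tame

section RatFunc

variable {K Ω Γ₀ : Type*} [Field K] [Field Ω] [LinearOrderedCommGroupWithZero Γ₀]

/-- The valuation of a polynomial in an element `x` with `w x > 1` is given by the leading
term. -/
theorem val_eval₂_eq (c : K →+* Ω) (w : Valuation Ω Γ₀) (hc : ∀ k : K, k ≠ 0 → w (c k) = 1)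
    {x : Ω} (hx : 1 < w x) {p : K[X]} (hp : p ≠ 0) :
    w (p.eval₂ c x) = w x ^ p.natDegree := by
  have hx0 : w x ≠ 0 := (lt_trans zero_lt_one hx).ne'
  rw [eval₂_eq_sum_range, Finset.sum_range_succ]
  have hlead : w (c (p.coeff p.natDegree) * x ^ p.natDegree) = w x ^ p.natDegree := by
    rw [map_mul, map_pow, hc _ (by simpa using hp), one_mul]
  have hlow : w (∑ i ∈ Finset.range p.natDegree, c (p.coeff i) * x ^ i) < w x ^ p.natDegree := by
    refine w.map_sum_lt (pow_ne_zero _ hx0) fun i hi => ?_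
    rw [Finset.mem_range] at hi
    rw [map_mul, map_pow]
    by_cases hci : p.coeff i = 0
    · rw [hci, map_zero, map_zero, zero_mul]
      exact pow_pos (lt_trans zero_lt_one hx) _
    · rw [hc _ hci, one_mul]
      exact pow_lt_pow_right₀ hx hi
  rw [← hlead] at hlow
  rw [w.map_add_eq_of_lt_right hlow, hlead]

theorem eval₂_ne_zero (c : K →+* Ω) (w : Valuation Ω Γ₀) (hc : ∀ k : K, k ≠ 0 → w (c k) = 1)
    {x : Ω} (hx : 1 < w x) {p : K[X]} (hp : p ≠ 0) : p.eval₂ c x ≠ 0 := by
  intro h0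
  have h := val_eval₂_eq c w hc hx hp
  rw [h0, map_zero] at h
  exact pow_ne_zero _ (lt_trans zero_lt_one hx).ne' h.symm

/-- A rational function of degree `≤ 0` in an element `x` with `w x > 1` has `w ≤ 1`. -/
theorem val_eval₂_le (c : K →+* Ω) (w : Valuation Ω Γ₀) (hc : ∀ k : K, k ≠ 0 → w (c k) = 1)
    {x : Ω} (hx : 1 < w x) {p q : K[X]} (hq : q ≠ 0) (hpq : p.natDegree ≤ q.natDegree) :
    w (p.eval₂ c x) ≤ w (q.eval₂ c x) := by
  by_cases hp : p = 0
  · rw [hp, eval₂_zero, map_zero]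
    exact zero_le
  · rw [val_eval₂_eq c w hc hx hp, val_eval₂_eq c w hc hx hq]
    exact pow_le_pow_right₀ hx.le hpq

theorem val_ratfunc_le_one (c : K →+* Ω) (w : Valuation Ω Γ₀)
    (hc : ∀ k : K, k ≠ 0 → w (c k) = 1) {x : Ω} (hx : 1 < w x) {p q : K[X]} (hq : q ≠ 0)
    (hpq : p.natDegree ≤ q.natDegree) : w (p.eval₂ c x / q.eval₂ c x) ≤ 1 := by
  have hq0 : w (q.eval₂ c x) ≠ 0 := by
    rw [Valuation.ne_zero_iff]
    exact eval₂_ne_zero c w hc hx hq
  rw [map_div₀, div_le_one₀ (zero_lt_iff.mpr hq0)]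
  exact val_eval₂_le c w hc hx hq hpq

/-- A rational function of negative degree in an element `x` with `w x > 1` has `w < 1`. -/
theorem val_ratfunc_lt_one (c : K →+* Ω) (w : Valuation Ω Γ₀)
    (hc : ∀ k : K, k ≠ 0 → w (c k) = 1) {x : Ω} (hx : 1 < w x) {p q : K[X]} (hq : q ≠ 0)
    (hpq : p.natDegree < q.natDegree) : w (p.eval₂ c x / q.eval₂ c x) < 1 := by
  have hq0 : w (q.eval₂ c x) ≠ 0 := by
    rw [Valuation.ne_zero_iff]
    exact eval₂_ne_zero c w hc hx hq
  rw [map_div₀, div_lt_one₀ (zero_lt_iff.mpr hq0)]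
  by_cases hp : p = 0
  · rw [hp, eval₂_zero, map_zero]
    exact zero_lt_iff.mpr hq0
  · rw [val_eval₂_eq c w hc hx hp, val_eval₂_eq c w hc hx hq]
    exact pow_lt_pow_right₀ hx hpq

end RatFunc

end Fermat.Agent.S20.LB.ValTame
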