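/-
S20/S21 lower bound, piece VAL: every element of helper4's `RRLite.Omega K F` (regular
differentials `h dX`) is tame with respect to the coordinate `x = X` in the valuative sense
`IsTameAt` of `LB/Defs.lean`:  `(x - a) h` vanishes wherever `x - a` does, and `x h` vanishes
wherever `x` has a pole.  Finite part: `Tame.exists_smul_mem_radical` for `A = K[X]`,
`p = (X - a)`; infinite part: the same for `A = Oinf K` (valuation ring at infinity), its maximal
ideal, and `x² h`.  Both are fed into `ValTame.val_lt_one_of_tame`.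
-/
import Fermat.Agent.S20.LB.Defs
import Fermat.Agent.S20.LB.Tame
import Fermat.Agent.S20.LB.ValTame
import Fermat.Agent.S20.RRLite.Defs
import Fermat.Agent.S20.RRLite.Wrap

set_option autoImplicit false

namespace Fermat.Agent.S20.LB.Val

open Polynomial Fermat.Agent.S20.RRLite

section Inf

variable (K : Type*) [Field K]

/-- The order at infinity of a nonzero polynomial is minus its degree. -/
theorem ordInf_algebraMap {p : K[X]} (hp : p ≠ 0) :
    ordInf K (algebraMap K[X] (RatFunc K) p) = -(p.natDegree : ℤ) := by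
  have h0 : algebraMap K[X] (RatFunc K) p ≠ 0 := by
    simpa using hp
  apply le_antisymm
  · rw [ordInf]
    apply HahnSeries.order_le_of_coeff_ne_zero
    rw [expInf_algebraMap, coeff_polyInf]
    exact leadingCoeff_ne_zero.mpr hp
  · rw [← forall_coeff_eq_zero_iff K h0]
    intro m hm
    rw [expInf_algebraMap]
    obtain ⟨k, rfl⟩ : ∃ k : ℕ, m = -(k : ℤ) := ⟨m.natAbs, by omega⟩
    rw [coeff_polyInf]
    exact coeff_eq_zero_of_natDegree_lt (by omega)

/-- The order at infinity of a nonzero rational function. -/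
theorem ordInf_eq {r : RatFunc K} (hr : r ≠ 0) :
    ordInf K r = (r.denom.natDegree : ℤ) - r.num.natDegree := by
  have hnum : r.num ≠ 0 := RatFunc.num_ne_zero hr
  have hden : r.denom ≠ 0 := RatFunc.denom_ne_zero r
  have hden' : algebraMap K[X] (RatFunc K) r.denom ≠ 0 := by simpa using hden
  have h1 : r * algebraMap K[X] (RatFunc K) r.denom = algebraMap K[X] (RatFunc K) r.num := by
    have h3 := RatFunc.num_div_denom r
    rw [div_eq_iff hden'] at h3
    exact h3.symm
  have h2 := ordInf_mul K hr hden'
  rw [h1, ordInf_algebraMap K hnum, ordInf_algebraMap K hden] at h2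
  omega

theorem natDegree_le_of_mem_Oinf {r : RatFunc K} (hr : r ∈ Oinf K) :
    r.num.natDegree ≤ r.denom.natDegree := by
  by_cases h0 : r = 0
  · subst h0; simp
  · have := (mem_Oinf_iff_ordInf K h0).mp hr
    rw [ordInf_eq K h0] at this
    omega

theorem natDegree_lt_of_not_isUnit {u : Oinf K} (hu : ¬ IsUnit u) (h0 : (u : RatFunc K) ≠ 0) :
    (u : RatFunc K).num.natDegree < (u : RatFunc K).denom.natDegree := by
  have h1 := (mem_Oinf_iff_ordInf K h0).mp u.2
  have h2 : ordInf K (u : RatFunc K) ≠ 0 := fun h => hu ((isUnit_Oinf_iff K u).mpr ⟨h0, h⟩)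
  rw [ordInf_eq K h0] at h1 h2
  omega

end Inf

section Main

variable (K F : Type*) [Field K] [Field F] [Algebra K F] [Algebra K[X] F] [Algebra (RatFunc K) F]
  [IsScalarTower K K[X] F] [IsScalarTower K[X] (RatFunc K) F] [IsScalarTower K (RatFunc K) F]
  {Γ₀ : Type*} [LinearOrderedCommGroupWithZero Γ₀]

omit [Algebra (RatFunc K) F] [IsScalarTower K[X] (RatFunc K) F] [IsScalarTower K (RatFunc K) F] in
theorem algebraMap_poly_eq_eval₂ (p : K[X]) :
    algebraMap K[X] F p = p.eval₂ (algebraMap K F) (algebraMap K[X] F X) := by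
  have h := Polynomial.hom_eval₂ p (C : K →+* K[X]) (algebraMap K[X] F) X
  rw [Polynomial.eval₂_C_X] at h
  rw [h]
  congr 1
  ext c
  exact (IsScalarTower.algebraMap_apply K K[X] F c).symm

omit [IsScalarTower K (RatFunc K) F] in
theorem algebraMap_rat_eq_eval₂ (r : RatFunc K) :
    algebraMap (RatFunc K) F r = r.num.eval₂ (algebraMap K F) (algebraMap K[X] F X) /
      r.denom.eval₂ (algebraMap K F) (algebraMap K[X] F X) := by
  have h := congrArg (algebraMap (RatFunc K) F) (RatFunc.num_div_denom r)
  rw [← h, map_div₀, ← IsScalarTower.algebraMap_apply, ← IsScalarTower.algebraMap_apply,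
    ← algebraMap_poly_eq_eval₂ K F r.num, ← algebraMap_poly_eq_eval₂ K F r.denom]

omit [Algebra (RatFunc K) F] [IsScalarTower K[X] (RatFunc K) F] [IsScalarTower K (RatFunc K) F] in
theorem val_poly_le_one (v : Valuation F Γ₀) (hv : ∀ c : K, c ≠ 0 → v (algebraMap K F c) = 1)
    (hx : v (algebraMap K[X] F X) ≤ 1) (q : K[X]) : v (algebraMap K[X] F q) ≤ 1 := by
  rw [algebraMap_poly_eq_eval₂, eval₂_eq_sum_range]
  apply Valuation.map_sum_le
  intro i _
  rw [map_mul, map_pow]
  have h1 : v (algebraMap K F (q.coeff i)) ≤ 1 := by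
    by_cases h : q.coeff i = 0
    · rw [h, map_zero, map_zero]; exact zero_le_one
    · exact (hv _ h).le
  exact mul_le_one' h1 (pow_le_one' hx i)

/-- Finite part of tameness: `(x - a) h` vanishes wherever `x - a` does. -/
theorem val_finite [CharZero K] [FiniteDimensional (RatFunc K) F]
    [Algebra.IsSeparable (RatFunc K) F] {h : F} (hh : h ∈ Omega K F) (v : Valuation F Γ₀)
    (hv : ∀ c : K, c ≠ 0 → v (algebraMap K F c) = 1) (a : K)
    (ha : v (algebraMap K[X] F X - algebraMap K F a) < 1) :
    v ((algebraMap K[X] F X - algebraMap K F a) * h) < 1 := by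
  set p : Ideal K[X] := Ideal.span {X - C a} with hp
  have hirr : Irreducible (X - C a : K[X]) := Polynomial.irreducible_X_sub_C a
  have hmax : p.IsMaximal := PrincipalIdealRing.isMaximal_of_irreducible hirr
  have hp0 : p ≠ ⊥ := by
    rw [hp, Ne, Ideal.span_singleton_eq_bot]
    exact Polynomial.X_sub_C_ne_zero a
  have hchar : ∀ n : ℕ, n ≠ 0 → (n : K[X]) ∉ p := by
    intro n hn hmem
    have hunit : IsUnit (n : K[X]) := by
      have : (n : K[X]) = C (n : K) := by simp
      rw [this]
      exact Polynomial.isUnit_C.mpr (IsUnit.mk0 _ (Nat.cast_ne_zero.mpr hn))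
    exact hmax.ne_top (Ideal.eq_top_of_isUnit_mem _ hmem hunit)
  have hxa : algebraMap K[X] F (X - C a) = algebraMap K[X] F X - algebraMap K F a := by
    rw [map_sub, IsScalarTower.algebraMap_apply K K[X] F a]
    rfl
  have htame := Tame.exists_smul_mem_radical K[X] (RatFunc K) F (integralClosure K[X] F) p hp0
    hchar h (fun b => by
      obtain ⟨q, hq⟩ := hh.1 (b : F) b.2
      exact ⟨q, hq⟩)
  have hx1 : v (algebraMap K[X] F X) ≤ 1 := by
    have h1 : v (algebraMap K F a) ≤ 1 := by
      by_cases h : a = 0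
      · rw [h, map_zero, map_zero]; exact zero_le_one
      · exact (hv _ h).le
    have h2 : algebraMap K[X] F X = (algebraMap K[X] F X - algebraMap K F a) + algebraMap K F a := by
      ring
    rw [h2]
    exact le_trans (v.map_add _ _) (max_le ha.le h1)
  have hA : ∀ q : K[X], v ((RingHom.id F) (algebraMap K[X] F q)) ≤ 1 :=
    fun q => val_poly_le_one K F v hv hx1 q
  have hpp : ∀ π ∈ p, v ((RingHom.id F) (algebraMap K[X] F π)) < 1 := by
    intro π hπ
    rw [hp, Ideal.mem_span_singleton'] at hπ
    obtain ⟨q, rfl⟩ := hπ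
    rw [RingHom.id_apply, map_mul, map_mul, hxa]
    calc v (algebraMap K[X] F q) * v (algebraMap K[X] F X - algebraMap K F a)
        ≤ 1 * v (algebraMap K[X] F X - algebraMap K F a) :=
          mul_le_mul_left (val_poly_le_one K F v hv hx1 q) _
      _ < 1 := by rw [one_mul]; exact ha
  have := ValTame.val_lt_one_of_tame (RingHom.id F) v p hA hpp h htame (X - C a)
    (Ideal.mem_span_singleton_self _)
  rwa [RingHom.id_apply, hxa] at this

/-- Infinite part of tameness: `x h` vanishes wherever `x` has a pole. -/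
theorem val_infinite [CharZero K] [FiniteDimensional (RatFunc K) F]
    [Algebra.IsSeparable (RatFunc K) F] {h : F} (hh : h ∈ Omega K F) (v : Valuation F Γ₀)
    (hv : ∀ c : K, c ≠ 0 → v (algebraMap K F c) = 1)
    (hx : 1 < v (algebraMap K[X] F X)) :
    v (algebraMap K[X] F X * h) < 1 := by
  have hxX : algebraMap (RatFunc K) F RatFunc.X = algebraMap K[X] F X := by
    rw [← RatFunc.algebraMap_X, ← IsScalarTower.algebraMap_apply]
  have hx0 : algebraMap K[X] F X ≠ 0 := by
    intro h0
    rw [h0, map_zero] at hx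
    exact not_lt.mpr zero_le_one hx
  set p : Ideal (Oinf K) := IsLocalRing.maximalIdeal (Oinf K) with hp
  have hp0 : p ≠ ⊥ := IsDiscreteValuationRing.not_a_field (Oinf K)
  have hchar : ∀ n : ℕ, n ≠ 0 → (n : Oinf K) ∉ p := by
    intro n hn hmem
    have hunit : IsUnit (n : Oinf K) := by
      have : (n : Oinf K) = algebraMap K (Oinf K) (n : K) := by simp
      rw [this]
      exact (IsUnit.mk0 _ (Nat.cast_ne_zero.mpr hn)).map _
    exact (IsLocalRing.mem_maximalIdeal _).mp hmem hunit
  have htr : ∀ b : integralClosure (Oinf K) F,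
      Algebra.trace (RatFunc K) F (algebraMap K[X] F X ^ 2 * h * algebraMap _ F b) ∈
        (algebraMap (Oinf K) (RatFunc K)).range := by
    intro b
    have h1 := hh.2 (b : F) b.2
    refine ⟨⟨_, h1⟩, ?_⟩
    show RatFunc.X ^ 2 * Algebra.trace (RatFunc K) F (h * b) = _
    rw [← hxX, ← map_pow, mul_assoc, ← Algebra.smul_def, map_smul, smul_eq_mul]
    rfl
  have htame := Tame.exists_smul_mem_radical (Oinf K) (RatFunc K) F (integralClosure (Oinf K) F)
    p hp0 hchar (algebraMap K[X] F X ^ 2 * h) htr
  have hA : ∀ u : Oinf K, v ((RingHom.id F) (algebraMap (Oinf K) F u)) ≤ 1 := by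
    intro u
    rw [RingHom.id_apply, IsScalarTower.algebraMap_apply (Oinf K) (RatFunc K) F,
      algebraMap_rat_eq_eval₂]
    exact ValTame.val_ratfunc_le_one (algebraMap K F) v hv hx (RatFunc.denom_ne_zero _)
      (natDegree_le_of_mem_Oinf K u.2)
  have hpp : ∀ π ∈ p, v ((RingHom.id F) (algebraMap (Oinf K) F π)) < 1 := by
    intro π hπ
    rw [RingHom.id_apply, IsScalarTower.algebraMap_apply (Oinf K) (RatFunc K) F]
    by_cases h0 : (π : RatFunc K) = 0
    · rw [show algebraMap (Oinf K) (RatFunc K) π = 0 from h0, map_zero, map_zero]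
      exact zero_lt_one
    · rw [algebraMap_rat_eq_eval₂]
      exact ValTame.val_ratfunc_lt_one (algebraMap K F) v hv hx (RatFunc.denom_ne_zero _)
        (natDegree_lt_of_not_isUnit K ((IsLocalRing.mem_maximalIdeal _).mp hπ) h0)
  have hXinv : XinvO K ∈ p := by
    rw [hp, IsLocalRing.mem_maximalIdeal]
    intro hu
    have h2 := ((isUnit_Oinf_iff K _).mp hu).2
    have h1 : ordInf K (RatFunc.X : RatFunc K)⁻¹ = 1 := by simpa using ordInf_X_inv_pow K 1
    change ordInf K (RatFunc.X : RatFunc K)⁻¹ = 0 at h2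
    omega
  have := ValTame.val_lt_one_of_tame (RingHom.id F) v p hA hpp (algebraMap K[X] F X ^ 2 * h) htame
    (XinvO K) hXinv
  rw [RingHom.id_apply] at this
  have e : algebraMap (Oinf K) F (XinvO K) * (algebraMap K[X] F X ^ 2 * h) =
      algebraMap K[X] F X * h := by
    rw [IsScalarTower.algebraMap_apply (Oinf K) (RatFunc K) F]
    show algebraMap (RatFunc K) F (RatFunc.X)⁻¹ * _ = _
    rw [map_inv₀, hxX]
    field_simp
  rwa [e] at this

/-- **VAL** (instance form): every element of `Omega K F` is tame with respect to the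
coordinate `x = X`. -/
theorem isTameAt_of_mem_Omega [CharZero K] [FiniteDimensional (RatFunc K) F]
    [Algebra.IsSeparable (RatFunc K) F] {h : F} (hh : h ∈ Omega K F) :
    IsTameAt K (algebraMap K[X] F X) h :=
  fun v hv => ⟨fun a ha => val_finite K F hh v hv a ha, fun hx => val_infinite K F hh v hv hx⟩

end Main

section WrapForm

open IntermediateField

variable {K F : Type*} [Field K] [Field F] [Algebra K F]

/-- `Omega K F` for the instances of `RRLite.Wrap` attached to a transcendental `x : F`. -/
noncomputable def OmegaX (x : F) (hx : Transcendental K x) : Submodule K F :=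
  @Omega K F _ _ _ (Wrap.polyAlgebra x) (Wrap.ratAlgebra x hx) (Wrap.tower_rat x hx).2

theorem omegaX_eq (x : F) (hx : Transcendental K x) :
    OmegaX x hx =
      @Omega K F _ _ _ (Wrap.polyAlgebra x) (Wrap.ratAlgebra x hx) (Wrap.tower_rat x hx).2 :=
  rfl

/-- **VAL** (wrap form): for `x : F` transcendental over `K` with `F / K(x)` finite, every
element of `Omega K F` (for the instances of `RRLite.Wrap`) is tame with respect to `x`. -/
theorem isTameAt_wrap [CharZero K] (x : F) (hx : Transcendental K x) [FiniteDimensional K⟮x⟯ F]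
    (h : F)
    (hh : h ∈ @Omega K F _ _ _ (Wrap.polyAlgebra x) (Wrap.ratAlgebra x hx)
      (Wrap.tower_rat x hx).2) :
    IsTameAt K x h := by
  let _ := Wrap.polyAlgebra (K := K) x
  let _ := Wrap.ratAlgebra x hx
  have := Wrap.tower_poly (K := K) x
  have := (Wrap.tower_rat x hx).1
  have := (Wrap.tower_rat x hx).2
  have := (Wrap.finrank_eq x hx).1
  have := Wrap.isSeparable x hx
  have key := isTameAt_of_mem_Omega K F hh
  rwa [show algebraMap K[X] F X = x from Polynomial.aeval_X x] at key

theorem isTameAt_omegaX [CharZero K] (x : F) (hx : Transcendental K x)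
    [FiniteDimensional K⟮x⟯ F] : ∀ h ∈ OmegaX x hx, IsTameAt K x h :=
  fun h hh => isTameAt_wrap x hx h hh

end WrapForm

end Fermat.Agent.S20.LB.Val
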