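/-
S20/S21 lower bound, piece ADAPT-INF: `r_∞ ≤ #{poles of x}`.  Comparison of the algebraic
point count `dim_K B / rad(t B)` of RR-lite (`B` the integral closure of the valuation ring at
infinity, `t = X⁻¹`) with the number of places of `F / K` at which `t` vanishes.
-/
import Mathlib
import Fermat.Agent.S20.LB.Defs
import Fermat.Agent.S20.RRLite.Defs
import Fermat.Agent.S20.RRLite.RelDim
import Fermat.Agent.S24.PlacesMore
import Fermat.Agent.S24.PlaceDict
import Fermat.Agent.S20.LB.ValTame
import Fermat.Agent.S20.LB.Val

set_option autoImplicit false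

noncomputable section

open AlgebraicCurve IntermediateField Polynomial Module IsDedekindDomain

namespace Fermat.Agent.S20.LB.AdaptInf

open Fermat.Agent.S20.RRLite Fermat.Agent.S24

variable {K F : Type*} [Field K] [Field F] [Algebra K F]

/-- **Kernel ⊆ radical.**  Let `B` be the integral closure of `A` in `F`, a Dedekind domain with
fraction field `F` containing the constants.  An integral element which vanishes at every place
where `t` vanishes lies in the radical of `t B`. -/
theorem isNilMod_of_forall_ord_pos (A : Type*) [CommRing A] [Algebra A F]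
    [IsDedekindDomain (integralClosure A F)] [IsFractionRing (integralClosure A F) F]
    (hK : ∀ a : K, IsIntegral A (algebraMap K F a)) (t : A) (ht : algebraMap A F t ≠ 0) {b : F}
    (hb : IsIntegral A b)
    (h : ∀ v : Place K F, 0 < v.ord (algebraMap A F t) → b = 0 ∨ 0 < v.ord b) :
    IsNilMod F A t b := by
  rw [isNilMod_iff]
  refine ⟨⟨b, hb⟩, rfl, ?_⟩
  rw [Ideal.radical_eq_sInf, Submodule.mem_sInf]
  rintro Q ⟨hQle, hQprime⟩
  by_cases hb0 : b = 0
  · have : (⟨b, hb⟩ : integralClosure A F) = 0 := Subtype.ext hb0
    rw [this]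
    exact Q.zero_mem
  have htB : algebraMap A (integralClosure A F) t ≠ 0 := by
    intro h0
    apply ht
    have := congrArg (algebraMap (integralClosure A F) F) h0
    rwa [← IsScalarTower.algebraMap_apply, map_zero] at this
  have htQ : algebraMap A (integralClosure A F) t ∈ Q := hQle (Ideal.mem_span_singleton_self _)
  have hQ0 : Q ≠ ⊥ := by
    intro h0
    rw [h0, Ideal.mem_bot] at htQ
    exact htB htQ
  let P : HeightOneSpectrum (integralClosure A F) := ⟨Q, hQprime, hQ0⟩
  have hK' : ∀ a : K, ∃ b : integralClosure A F,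
      algebraMap (integralClosure A F) F b = algebraMap K F a := fun a => ⟨⟨_, hK a⟩, rfl⟩
  have hv : 0 < (Places.ofPrime hK' P).ord (algebraMap A F t) := by
    rw [IsScalarTower.algebraMap_apply A (integralClosure A F) F]
    exact (Places.ord_pos_iff_mem hK' P htB).mpr htQ
  rcases h _ hv with h0 | hpos
  · exact absurd h0 hb0
  · have hbB : (⟨b, hb⟩ : integralClosure A F) ≠ 0 := fun h0 => hb0 (congrArg Subtype.val h0)
    exact (Places.ord_pos_iff_mem hK' P hbB).mp hpos

/-- **Residue map.**  If every element of `M` is regular at the (finitely many) zeros of `y`, and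
the elements of `M` vanishing at all zeros of `y` lie in `R`, then `dim_K M / R` is at most the
number of zeros of `y`. -/
theorem relDim_le_zeroCount [IsAlgClosed K] (x : F) [FiniteDimensional K⟮x⟯ F]
    (R M : Submodule K F) (y : F) (hfin : {v : Place K F | 0 < v.ord y}.Finite)
    (hmem : ∀ b ∈ M, ∀ v : Place K F, 0 < v.ord y → b ∈ v.toValuationSubring)
    (hker : ∀ b ∈ M, (∀ v : Place K F, 0 < v.ord y → b = 0 ∨ 0 < v.ord b) → b ∈ R) :
    relDim R M ≤ zeroCount K y := by
  classical
  have hfinS : Finite {v : Place K F // 0 < v.ord y} := hfin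
  have hfintype : Fintype {v : Place K F // 0 < v.ord y} := Fintype.ofFinite _
  have hdeg : ∀ v : Place K F, finrank K v.ResidueField = 1 := fun v => Places.deg_one x v
  have hfinV : ∀ v : {v : Place K F // 0 < v.ord y}, Module.Finite K v.1.ResidueField :=
    fun v => Module.finite_of_finrank_pos (by rw [hdeg]; exact one_pos)
  let φ : M →ₗ[K] (∀ v : {v : Place K F // 0 < v.ord y}, v.1.ResidueField) :=
    { toFun := fun b v => IsLocalRing.residue v.1.toValuationSubring
        ⟨(b : F), hmem b b.2 v.1 v.2⟩
      map_add' := by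
        intro b c
        funext v
        rw [Pi.add_apply, ← map_add]
        rfl
      map_smul' := by
        intro c b
        funext v
        rw [Pi.smul_apply, RingHom.id_apply, Algebra.smul_def,
          IsScalarTower.algebraMap_apply K v.1.toValuationSubring v.1.ResidueField,
          IsLocalRing.ResidueField.algebraMap_eq, ← map_mul]
        congr 1
        apply Subtype.ext
        show ((c • b : M) : F) = algebraMap K F c * (b : F)
        rw [Submodule.coe_smul, Algebra.smul_def] }
  have hφ : ∀ b : M, φ b = 0 → (b : F) ∈ R := by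
    intro b hb0
    apply hker b b.2
    intro v hv
    by_cases hbz : (b : F) = 0
    · exact Or.inl hbz
    · right
      have h1 : IsLocalRing.residue v.toValuationSubring
          (⟨(b : F), hmem b b.2 v hv⟩ : v.toValuationSubring) = 0 := congrFun hb0 ⟨v, hv⟩
      rw [IsLocalRing.residue_eq_zero_iff] at h1
      exact (Places.ord_pos_iff_mem_maximalIdeal v
        (a := ⟨(b : F), hmem b b.2 v hv⟩) (fun h0 => hbz (congrArg Subtype.val h0))).mpr h1
  calc relDim R M ≤ finrank K (∀ v : {v : Place K F // 0 < v.ord y}, v.1.ResidueField) :=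
        (relDim_le_of_ker_le R M φ hφ).2
    _ = ∑ v : {v : Place K F // 0 < v.ord y}, finrank K v.1.ResidueField :=
        Module.finrank_pi_fintype K
    _ = zeroCount K y := by
        simp only [hdeg, Finset.sum_const, Finset.card_univ, smul_eq_mul, mul_one]
        rw [zeroCount, Nat.card_eq_fintype_card]

/-- Nonzero constants have normalised valuation one at every place. -/
theorem adicValuation_algebraMap (v : Place K F) (c : K) (hc : c ≠ 0) :
    v.adicValuation (algebraMap K F c) = 1 := by
  have h0 : algebraMap K F c ≠ 0 := by simpa using hc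
  have h1 := Places.ord_algebraMap v c
  have hne := v.adicValuation_ne_zero h0
  unfold Place.ord at h1
  rw [← WithZero.exp_log hne, ← WithZero.exp_zero]
  congr 1
  omega

section Inst

variable (K F)
variable [Algebra K[X] F] [Algebra (RatFunc K) F]
  [IsScalarTower K K[X] F] [IsScalarTower K[X] (RatFunc K) F] [IsScalarTower K (RatFunc K) F]

/-- **ADAPT-INF**, instance form. -/
theorem rInf_le_zeroCount_aux [IsAlgClosed K] [CharZero K] [FiniteDimensional (RatFunc K) F]
    [Algebra.IsSeparable (RatFunc K) F] (x : F) (hxX : algebraMap K[X] F X = x)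
    (hx : Transcendental K x) [FiniteDimensional K⟮x⟯ F] :
    rInf K F ≤ zeroCount K x⁻¹ := by
  have hx0 : x ≠ 0 := fun h0 => hx (h0 ▸ isAlgebraic_zero)
  have hXinv : algebraMap (Oinf K) F (XinvO K) = x⁻¹ := by
    rw [IsScalarTower.algebraMap_apply (Oinf K) (RatFunc K) F]
    show algebraMap (RatFunc K) F (RatFunc.X)⁻¹ = _
    rw [map_inv₀, ← RatFunc.algebraMap_X, ← IsScalarTower.algebraMap_apply, hxX]
  have hDed : IsDedekindDomain (integralClosure (Oinf K) F) :=
    integralClosure.isDedekindDomain (Oinf K) (RatFunc K) F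
  have hFrac : IsFractionRing (integralClosure (Oinf K) F) F :=
    integralClosure.isFractionRing_of_finite_extension (RatFunc K) F
  have hK : ∀ a : K, IsIntegral (Oinf K) (algebraMap K F a) := by
    intro a
    rw [IsScalarTower.algebraMap_apply K (Oinf K) F]
    exact isIntegral_algebraMap
  refine relDim_le_zeroCount x (RadInf K F) (BinfK K F) x⁻¹
    (Places.sum_ord_zeros_of_eq x⁻¹ K⟮x⟯ (Places.adjoin_inv_eq x)
      (Places.transcendental_inv hx)).1 ?_ ?_
  · intro b hb v hv
    have hlt := ((PlaceDict.ord_pos_iff v x⁻¹).mp hv).2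
    have hgt : 1 < v.adicValuation (algebraMap K[X] F X) := by
      rw [hxX]
      rw [map_inv₀] at hlt
      exact (inv_lt_one₀ (zero_lt_iff.mpr (v.adicValuation_ne_zero hx0))).mp hlt
    rw [PlaceDict.mem_iff_adicValuation_le_one]
    refine ValTame.val_le_one_of_isIntegral (A := Oinf K) (RingHom.id F) v.adicValuation
      (fun u => ?_) hb
    rw [RingHom.id_apply, IsScalarTower.algebraMap_apply (Oinf K) (RatFunc K) F,
      Val.algebraMap_rat_eq_eval₂]
    exact ValTame.val_ratfunc_le_one (algebraMap K F) v.adicValuation
      (adicValuation_algebraMap v) hgt (RatFunc.denom_ne_zero _)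
      (Val.natDegree_le_of_mem_Oinf K u.2)
  · intro b hb h
    refine isNilMod_of_forall_ord_pos (Oinf K) hK (XinvO K) ?_ hb ?_
    · rw [hXinv]
      exact inv_ne_zero hx0
    · intro v hv
      rw [hXinv] at hv
      exact h v hv

end Inst

end Fermat.Agent.S20.LB.AdaptInf

namespace Fermat.Agent.S20.LB

open Fermat.Agent.S20.RRLite

variable (K F : Type*) [Field K] [Field F] [Algebra K F]

/-! ### ADAPT-INF: file Fermat/Agent/S20/LB/AdaptInf.lean -/

theorem rInf_le_zeroCount [IsAlgClosed K] [CharZero K] (x : F) (hx : Transcendental K x)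
    [FiniteDimensional K⟮x⟯ F] :
    letI := Wrap.polyAlgebra (K := K) x
    letI := Wrap.ratAlgebra x hx
    haveI := Wrap.tower_poly (K := K) x
    haveI := (Wrap.tower_rat x hx).1
    haveI := (Wrap.tower_rat x hx).2
    rInf K F ≤ zeroCount K x⁻¹ := by
  let _ := Wrap.polyAlgebra (K := K) x
  let _ := Wrap.ratAlgebra x hx
  have := Wrap.tower_poly (K := K) x
  have := (Wrap.tower_rat x hx).1
  have := (Wrap.tower_rat x hx).2
  have := (Wrap.finrank_eq x hx).1
  have := Wrap.isSeparable x hx
  exact AdaptInf.rInf_le_zeroCount_aux K F x (Polynomial.aeval_X x) hx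

end Fermat.Agent.S20.LB

end
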