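import Mathlib

/-!
# Radical bound (piece (5) of the RR-LITE core of the S20/S21 lower bound)

`B` is the integral closure of a Dedekind domain `A` in a finite separable extension `L` of
`K = Frac A`; `K₀` is a base field with `Algebra K₀ A`.

* `intTrace_mem_of_mem_radical`: the integral trace of an element of `rad(pB)` lies in `p`.
* `trace_inv_mul_mem`: `π⁻¹ rad(πB)` is contained in the trace dual of `B`.
* `mem_map_of_sum_mem`: if `∑ t ∈ T, (π t)⁻¹ g t ∈ B` for pairwise distinct maximal ideals
  `(π t)`, then `g t ∈ π t B` for every `t`.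
* `finrank_quotient_map_eq`: `dim_{K₀} B / pB = [L : K]` when `K₀ → A / p` is onto.
* `exists_indep_radical`: `n - r` elements of `rad(pB)` independent modulo `pB`.
* `sum_le_finrank_quotient`: `∑ t ∈ T, (n - r_t) ≤ dim_{K₀} M2 / M` whenever `M` is the image
  of `B` and `M2 ⊇ (π t)⁻¹ rad(π t B)`.
-/

namespace Fermat.Agent.S20.LB.Radical

open Module Algebra nonZeroDivisors

attribute [local instance] FractionRing.liftAlgebra FractionRing.isScalarTower_liftAlgebra
  Ideal.Quotient.field

section

/-- The integral trace of an element of `rad(pB)` lies in `p`. -/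
theorem intTrace_mem_of_mem_radical (A : Type*) {B : Type*} [CommRing A] [CommRing B] [Algebra A B]
    [IsDedekindDomain A] [IsDedekindDomain B] [IsTorsionFree A B]
    [Module.Finite A B] (p : Ideal A) [p.IsMaximal]
    (g : B) (hg : g ∈ (p.map (algebraMap A B)).radical) : Algebra.intTrace A B g ∈ p := by
  obtain ⟨e, he⟩ := hg
  rw [← Ideal.Quotient.eq_zero_iff_mem, ← Algebra.trace_quotient_eq_of_isDedekindDomain,
    ← isNilpotent_iff_eq_zero]
  refine Algebra.isNilpotent_trace_of_isNilpotent ⟨e, ?_⟩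
  rw [← map_pow, Ideal.Quotient.eq_zero_iff_mem]
  exact he

variable (A K L B : Type*) [CommRing A] [IsDedekindDomain A] [Field K]
    [Algebra A K] [IsFractionRing A K] [Field L] [Algebra K L] [Algebra A L] [IsScalarTower A K L]
    [FiniteDimensional K L] [Algebra.IsSeparable K L] [CommRing B] [Algebra A B] [Algebra B L]
    [IsScalarTower A B L] [IsIntegralClosure B A L]

/-- Radical bound: for `g ∈ rad(pB)` and `π ∈ A` generating `p`, `π⁻¹ g` lies in the trace dual
of `B`. -/
theorem trace_inv_mul_mem (p : Ideal A) [p.IsMaximal] (π : A) (hπ : p = Ideal.span {π})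
    (g : B) (hg : g ∈ (p.map (algebraMap A B)).radical) (b : B) :
    Algebra.trace K L ((algebraMap A L π)⁻¹ * algebraMap B L g * algebraMap B L b) ∈
      (algebraMap A K).range := by
  have : IsDomain B :=
    (IsIntegralClosure.equiv A B L (integralClosure A L)).toMulEquiv.isDomain (integralClosure A L)
  have : IsDedekindDomain B := IsIntegralClosure.isDedekindDomain A K L B
  have : IsFractionRing B L := IsIntegralClosure.isFractionRing_of_finite_extension A K L B
  have : Module.Finite A B := IsIntegralClosure.finite A K L B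
  have : IsTorsionFree A L := .trans_faithfulSMul A K L
  have : IsTorsionFree A B := IsIntegralClosure.isTorsionFree A L
  by_cases hπ0 : π = 0
  · simp [hπ0]
  have hgb : g * b ∈ (p.map (algebraMap A B)).radical := Ideal.mul_mem_right _ _ hg
  have h1 := intTrace_mem_of_mem_radical A p (g * b) hgb
  rw [hπ, Ideal.mem_span_singleton] at h1
  obtain ⟨c, hc⟩ := h1
  refine ⟨c, ?_⟩
  have h2 : Algebra.trace K L (algebraMap B L (g * b)) = algebraMap A K (π * c) := by
    rw [← hc, Algebra.algebraMap_intTrace (A := A) (K := K) (L := L)]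
  have h3 : (algebraMap A L π)⁻¹ * algebraMap B L g * algebraMap B L b =
      (algebraMap A K π)⁻¹ • algebraMap B L (g * b) := by
    rw [Algebra.smul_def, map_inv₀, ← IsScalarTower.algebraMap_apply, map_mul, mul_assoc]
  rw [h3, map_smul, h2, smul_eq_mul, map_mul, ← mul_assoc, inv_mul_cancel₀, one_mul]
  exact fun h => hπ0 ((IsFractionRing.injective A K) (by rw [h, map_zero]))

include K in
omit [IsDedekindDomain A] [FiniteDimensional K L] [Algebra.IsSeparable K L] in
/-- Independence of the radical classes at distinct maximal ideals: if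
`∑ t ∈ T, (π t)⁻¹ * g t` lies in `B`, then each `g t` lies in `π t B`. -/
theorem mem_map_of_sum_mem {ι : Type*} [DecidableEq ι] (T : Finset ι) (π : ι → A)
    (hmax : ∀ t ∈ T, (Ideal.span {π t}).IsMaximal)
    (hdist : ∀ s ∈ T, ∀ t ∈ T, s ≠ t → Ideal.span {π s} ≠ Ideal.span {π t})
    (hne : ∀ t ∈ T, π t ≠ 0) (g : ι → B) (b : B)
    (h : ∑ t ∈ T, (algebraMap A L (π t))⁻¹ * algebraMap B L (g t) = algebraMap B L b) :
    ∀ t ∈ T, g t ∈ (Ideal.span {π t}).map (algebraMap A B) := by
  have hinjA : Function.Injective (algebraMap A L) := by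
    rw [IsScalarTower.algebraMap_eq A K L]
    exact (algebraMap K L).injective.comp (IsFractionRing.injective A K)
  have hinjB : Function.Injective (algebraMap B L) := IsIntegralClosure.algebraMap_injective B A L
  -- clear denominators
  have hB : ∑ s ∈ T, (∏ s' ∈ T.erase s, π s') • g s = (∏ s ∈ T, π s) • b := by
    apply hinjB
    rw [map_sum, Algebra.smul_def, map_mul, ← IsScalarTower.algebraMap_apply, ← h, Finset.mul_sum]
    refine Finset.sum_congr rfl fun s hs => ?_
    rw [Algebra.smul_def, map_mul, ← IsScalarTower.algebraMap_apply, ← mul_assoc]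
    congr 1
    have hs0 : algebraMap A L (π s) ≠ 0 := fun h0 => hne s hs (hinjA (by rw [h0, map_zero]))
    rw [← Finset.mul_prod_erase T π hs, map_mul]
    field_simp
  intro t ht
  set I := (Ideal.span {π t}).map (algebraMap A B) with hI
  have hmemI : ∀ a : A, π t ∣ a → ∀ x : B, a • x ∈ I := by
    intro a ha x
    rw [Algebra.smul_def]
    exact Ideal.mul_mem_right _ _ (Ideal.mem_map_of_mem _ (Ideal.mem_span_singleton.mpr ha))
  have h1 : (∏ s' ∈ T.erase t, π s') • g t ∈ I := by
    have : (∏ s' ∈ T.erase t, π s') • g t =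
        (∏ s ∈ T, π s) • b - ∑ s ∈ T.erase t, (∏ s' ∈ T.erase s, π s') • g s := by
      rw [← hB, ← Finset.add_sum_erase T _ ht, add_sub_cancel_right]
    rw [this]
    refine I.sub_mem (hmemI _ (Finset.dvd_prod_of_mem π ht) _) (I.sum_mem fun s hs => ?_)
    refine hmemI _ (Finset.dvd_prod_of_mem π ?_) _
    exact Finset.mem_erase.mpr ⟨(Finset.ne_of_mem_erase hs).symm, ht⟩
  have hprime : (Ideal.span {π t}).IsPrime := (hmax t ht).isPrime
  have h2 : (∏ s' ∈ T.erase t, π s') ∉ Ideal.span {π t} := by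
    intro hmem
    obtain ⟨s, hs, hsmem⟩ := (hprime.prod_mem_iff).mp hmem
    have hsT : s ∈ T := Finset.mem_of_mem_erase hs
    have hle : Ideal.span {π s} ≤ Ideal.span {π t} :=
      (Ideal.span_singleton_le_iff_mem _).mpr hsmem
    exact hdist s hsT t ht (Finset.ne_of_mem_erase hs)
      ((hmax s hsT).eq_of_le hprime.ne_top hle)
  obtain ⟨y, i, hi, hyi⟩ := (hmax t ht).exists_inv h2
  have h3 : g t = y • ((∏ s' ∈ T.erase t, π s') • g t) + i • g t := by
    rw [smul_smul, ← add_smul, hyi, one_smul]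
  rw [h3]
  refine I.add_mem ?_ (hmemI i (Ideal.mem_span_singleton.mp hi) _)
  rw [Algebra.smul_def]
  exact Ideal.mul_mem_left _ _ h1

end

section Count

variable (K₀ A K L B : Type*) [Field K₀] [CommRing A] [IsDedekindDomain A] [Field K]
    [Algebra A K] [IsFractionRing A K] [Field L] [Algebra K L] [Algebra A L] [IsScalarTower A K L]
    [FiniteDimensional K L] [Algebra.IsSeparable K L] [CommRing B] [Algebra A B] [Algebra B L]
    [IsScalarTower A B L] [IsIntegralClosure B A L]
    [Algebra K₀ A] [Algebra K₀ B] [IsScalarTower K₀ A B]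

set_option linter.deprecated false in
/-- `dim_{K₀} B/pB = [L : K]` when the residue field of `p` is `K₀`. -/
theorem finrank_quotient_map_eq (p : Ideal A) [p.IsMaximal]
    (hres : ∀ a : A, ∃ c : K₀, a - algebraMap K₀ A c ∈ p) :
    Module.finrank K₀ (B ⧸ p.map (algebraMap A B)) = Module.finrank K L := by
  have : IsDomain B :=
    (IsIntegralClosure.equiv A B L (integralClosure A L)).toMulEquiv.isDomain (integralClosure A L)
  have : IsFractionRing B L := IsIntegralClosure.isFractionRing_of_finite_extension A K L B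
  have : Module.Finite A B := IsIntegralClosure.finite A K L B
  have h1 : Module.finrank (A ⧸ p) (B ⧸ p.map (algebraMap A B)) = Module.finrank K L :=
    Ideal.finrank_quotient_map p K L
  have : IsScalarTower K₀ (A ⧸ p) (B ⧸ p.map (algebraMap A B)) := by
    refine IsScalarTower.of_algebraMap_eq' ?_
    ext c
    show Ideal.Quotient.mk _ (algebraMap K₀ B c) =
      algebraMap (A ⧸ p) (B ⧸ p.map (algebraMap A B)) (Ideal.Quotient.mk p (algebraMap K₀ A c))
    rw [Ideal.Quotient.algebraMap_quotient_map_quotient, ← IsScalarTower.algebraMap_apply]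
  have h2 : Module.finrank K₀ (A ⧸ p) = 1 := by
    have hbij : Function.Bijective (Algebra.linearMap K₀ (A ⧸ p)) := by
      refine ⟨(algebraMap K₀ (A ⧸ p)).injective, fun x => ?_⟩
      obtain ⟨a, rfl⟩ := Ideal.Quotient.mk_surjective x
      obtain ⟨c, hc⟩ := hres a
      refine ⟨c, ?_⟩
      rw [Algebra.linearMap_apply, IsScalarTower.algebraMap_apply K₀ A (A ⧸ p)]
      exact ((Ideal.Quotient.mk_eq_mk_iff_sub_mem _ _).mpr hc).symm
    rw [← (LinearEquiv.ofBijective _ hbij).finrank_eq, Module.finrank_self]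
  rw [← h1, ← Module.finrank_mul_finrank K₀ (A ⧸ p) (B ⧸ p.map (algebraMap A B)), h2, one_mul]

/-- `n - r` elements of `rad(pB)` that are `K₀`-independent modulo `pB`
(`n = [L : K]`, `r = dim_{K₀} B / rad(pB)`). -/
theorem exists_indep_radical (p : Ideal A) [p.IsMaximal]
    (hres : ∀ a : A, ∃ c : K₀, a - algebraMap K₀ A c ∈ p) :
    ∃ γ : Fin (Module.finrank K L -
        Module.finrank K₀ (B ⧸ (p.map (algebraMap A B)).radical)) → B,
      (∀ i, γ i ∈ (p.map (algebraMap A B)).radical) ∧
      ∀ c : Fin (Module.finrank K L -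
        Module.finrank K₀ (B ⧸ (p.map (algebraMap A B)).radical)) → K₀,
        ∑ i, c i • γ i ∈ p.map (algebraMap A B) → c = 0 := by
  set I := p.map (algebraMap A B) with hI
  have hIR : I ≤ I.radical := Ideal.le_radical
  have hn : Module.finrank K₀ (B ⧸ I) = Module.finrank K L :=
    finrank_quotient_map_eq K₀ A K L B p hres
  have : Module.Finite K₀ (B ⧸ I) :=
    Module.finite_of_finrank_pos (by rw [hn]; exact Module.finrank_pos)
  let q : (B ⧸ I) →ₗ[K₀] (B ⧸ I.radical) := (Ideal.Quotient.factorₐ K₀ hIR).toLinearMap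
  have hq : Function.Surjective q := Ideal.Quotient.factor_surjective hIR
  have hd : Module.finrank K₀ (LinearMap.ker q) =
      Module.finrank K L - Module.finrank K₀ (B ⧸ I.radical) := by
    have h1 := LinearMap.finrank_range_add_finrank_ker q
    rw [LinearMap.range_eq_top.mpr hq, finrank_top, hn] at h1
    omega
  rw [← hd]
  let β := Module.finBasis K₀ (LinearMap.ker q)
  choose γ hγ using fun i => Ideal.Quotient.mk_surjective (I := I) ((β i : LinearMap.ker q) : B ⧸ I)
  refine ⟨γ, fun i => ?_, fun c hc => ?_⟩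
  · have h0 : q (Ideal.Quotient.mk I (γ i)) = 0 := by
      rw [hγ i]; exact (β i).2
    have h1 : q (Ideal.Quotient.mk I (γ i)) = Ideal.Quotient.mk I.radical (γ i) := rfl
    rw [h1] at h0
    exact Ideal.Quotient.eq_zero_iff_mem.mp h0
  · have h0 : Ideal.Quotient.mkₐ K₀ I (∑ i, c i • γ i) = 0 := Ideal.Quotient.eq_zero_iff_mem.mpr hc
    rw [map_sum] at h0
    have h1 : ((∑ i, c i • β i : LinearMap.ker q) : B ⧸ I) = 0 := by
      rw [← h0, Submodule.coe_sum]
      refine Finset.sum_congr rfl fun i _ => ?_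
      rw [Submodule.coe_smul, map_smul, ← hγ i]
      rfl
    have h2 : ∑ i, c i • β i = 0 := Subtype.ext h1
    exact funext (Fintype.linearIndependent_iff.mp β.linearIndependent c h2)

variable [Algebra K₀ L] [IsScalarTower K₀ B L]

/-- **Radical bound, packaged.** If `M` is the image of `B` in `L` and the `K₀`-subspace `M2`
contains `(π t)⁻¹ rad(π t B)` for all `t ∈ T` (pairwise distinct maximal ideals `(π t)` with
residue field `K₀`), then `∑ (n - r_t) ≤ dim_{K₀} M2 / M`. -/
theorem sum_le_finrank_quotient {ι : Type*} [DecidableEq ι] (T : Finset ι) (π : ι → A)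
    (hmax : ∀ t ∈ T, (Ideal.span {π t}).IsMaximal)
    (hdist : ∀ s ∈ T, ∀ t ∈ T, s ≠ t → Ideal.span {π s} ≠ Ideal.span {π t})
    (hne : ∀ t ∈ T, π t ≠ 0)
    (hres : ∀ t ∈ T, ∀ a : A, ∃ c : K₀, a - algebraMap K₀ A c ∈ Ideal.span {π t})
    (M M2 : Submodule K₀ L) (hM : ∀ x : L, x ∈ M ↔ ∃ b : B, algebraMap B L b = x)
    (hM2 : ∀ t ∈ T, ∀ g : B, g ∈ ((Ideal.span {π t}).map (algebraMap A B)).radical →
      (algebraMap A L (π t))⁻¹ * algebraMap B L g ∈ M2)
    [FiniteDimensional K₀ (↥M2 ⧸ M.submoduleOf M2)] :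
    ∑ t ∈ T, (Module.finrank K L -
        Module.finrank K₀ (B ⧸ ((Ideal.span {π t}).map (algebraMap A B)).radical)) ≤
      Module.finrank K₀ (↥M2 ⧸ M.submoduleOf M2) := by
  classical
  set d : ι → ℕ := fun t => Module.finrank K L -
    Module.finrank K₀ (B ⧸ ((Ideal.span {π t}).map (algebraMap A B)).radical) with hd
  have key : ∀ t ∈ T, ∃ γ : Fin (d t) → B,
      (∀ i, γ i ∈ ((Ideal.span {π t}).map (algebraMap A B)).radical) ∧
      ∀ c : Fin (d t) → K₀, ∑ i, c i • γ i ∈ (Ideal.span {π t}).map (algebraMap A B) → c = 0 :=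
    fun t ht => by
      have := hmax t ht
      exact exists_indep_radical K₀ A K L B (Ideal.span {π t}) (hres t ht)
  choose! γ hγ1 hγ2 using key
  let v : (Σ t : ↥T, Fin (d t.1)) → L := fun x =>
    (algebraMap A L (π x.1.1))⁻¹ * algebraMap B L (γ x.1.1 x.2)
  have hv : ∀ x, v x ∈ M2 := fun x => hM2 x.1.1 x.1.2 _ (hγ1 x.1.1 x.1.2 x.2)
  let v' : (Σ t : ↥T, Fin (d t.1)) → ↥M2 ⧸ M.submoduleOf M2 := fun x =>
    Submodule.Quotient.mk ⟨v x, hv x⟩
  have hli : LinearIndependent K₀ v' := by
    rw [Fintype.linearIndependent_iff]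
    intro c hc
    have h1 : ∑ x, c x • v x ∈ M := by
      have h2 : (∑ x, c x • (⟨v x, hv x⟩ : ↥M2)) ∈ M.submoduleOf M2 := by
        rw [← Submodule.Quotient.mk_eq_zero, ← Submodule.mkQ_apply, map_sum, ← hc]
        exact Finset.sum_congr rfl fun x _ => by rw [map_smul]; rfl
      have h3 : ((∑ x, c x • (⟨v x, hv x⟩ : ↥M2) : ↥M2) : L) ∈ M := h2
      rwa [Submodule.coe_sum] at h3
    obtain ⟨b, hb⟩ := (hM _).mp h1
    let g : ι → B := fun t => if h : t ∈ T then ∑ i, c ⟨⟨t, h⟩, i⟩ • γ t i else 0
    have hsum : ∑ t ∈ T, (algebraMap A L (π t))⁻¹ * algebraMap B L (g t) = algebraMap B L b := by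
      rw [hb, Fintype.sum_sigma, ← Finset.sum_coe_sort T]
      refine Finset.sum_congr rfl fun t _ => ?_
      simp only [g, dif_pos t.2, map_sum, Finset.mul_sum, v]
      refine Finset.sum_congr rfl fun i _ => ?_
      rw [Algebra.smul_def, map_mul, ← IsScalarTower.algebraMap_apply K₀ B L, Algebra.smul_def]
      ring
    have hmem := mem_map_of_sum_mem A K L B T π hmax hdist hne g b hsum
    intro x
    obtain ⟨⟨t, ht⟩, i⟩ := x
    have h4 := hγ2 t ht (fun i => c ⟨⟨t, ht⟩, i⟩) (by
      have := hmem t ht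
      simpa only [g, dif_pos ht] using this)
    exact congrFun h4 i
  have hcard := hli.fintype_card_le_finrank
  rw [Fintype.card_sigma] at hcard
  simp only [Fintype.card_fin] at hcard
  rwa [Finset.sum_coe_sort T d] at hcard

end Count

end Fermat.Agent.S20.LB.Radical
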