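/-
S20 / S21 lower bound (LB), piece ADAPT (generic core): residue maps at the places over the
zeros of an element `t` of a base ring `A`, for the integral closure `B` of `A` in the function
field `F`.  The joint kernel of the residue maps lies in the radical of `t B`.
-/
import Mathlib
import Fermat.Agent.S20.LB.Defs
import Fermat.Agent.S20.RRLite.Defs
import Fermat.Agent.S24.Places
import Fermat.Agent.S24.PlacesMore

set_option autoImplicit false

noncomputable section

open AlgebraicCurve IsDedekindDomain

namespace Fermat.Agent.S20.LB.Adapt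

open Fermat.Agent.S20.RRLite Fermat.Agent.S24

variable {K F : Type*} [Field K] [Field F] [Algebra K F]

/-- The residue map at a place whose residue field is `K`, as a `K`-linear functional. -/
def resK (v : Place K F) (hv : Function.Surjective (algebraMap K v.ResidueField)) :
    v.toValuationSubring →ₗ[K] K :=
  (LinearEquiv.ofBijective (Algebra.linearMap K v.ResidueField)
      ⟨(algebraMap K v.ResidueField).injective, hv⟩).symm.toLinearMap ∘ₗ
    (IsScalarTower.toAlgHom K v.toValuationSubring v.ResidueField).toLinearMap

theorem resK_eq_zero_iff (v : Place K F) (hv : Function.Surjective (algebraMap K v.ResidueField))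
    (a : v.toValuationSubring) :
    resK v hv a = 0 ↔ a ∈ IsLocalRing.maximalIdeal v.toValuationSubring := by
  unfold resK
  rw [LinearMap.comp_apply, LinearEquiv.coe_coe, LinearEquiv.map_eq_zero_iff]
  exact IsLocalRing.residue_eq_zero_iff a

/-- Inclusion of a `K`-subspace of `F` contained in the valuation ring of `v`. -/
def inclO (v : Place K F) (M : Submodule K F) (hM : ∀ b ∈ M, b ∈ v.toValuationSubring) :
    M →ₗ[K] v.toValuationSubring where
  toFun b := ⟨b, hM b b.2⟩
  map_add' _ _ := rfl
  map_smul' c b := by
    apply Subtype.ext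
    show ((c • b : M) : F) = ((algebraMap K v.toValuationSubring c : v.toValuationSubring) : F) * b
    rw [Place.coe_algebraMap, Submodule.coe_smul, Algebra.smul_def]

/-- **Generic ADAPT.** `A` a base ring with integral closure `B = integralClosure A F` a Dedekind
domain with fraction field `F`; `t : A` non-zero in `F`; all residue fields equal to `K`; `B`
contained in the valuation ring of every place where `t` vanishes.  Then the residue maps at the
places over `t = 0` define a `K`-linear map on `B` (as a `K`-subspace `M` of `F`) whose kernel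
lies in the radical of `t B`. -/
theorem exists_linearMap {A : Type*} [CommRing A] [Algebra A F]
    [IsDedekindDomain (integralClosure A F)] [IsFractionRing (integralClosure A F) F]
    (hK : ∀ a : K, ∃ b : integralClosure A F, algebraMap (integralClosure A F) F b = algebraMap K F a)
    (t : A) (ht : algebraMap A F t ≠ 0)
    (hres : ∀ v : Place K F, Function.Surjective (algebraMap K v.ResidueField))
    (M : Submodule K F) (hM : ∀ b : F, b ∈ M ↔ IsIntegral A b)
    (hB : ∀ v : Place K F, 0 < v.ord (algebraMap A F t) → ∀ b ∈ M, b ∈ v.toValuationSubring) :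
    ∃ φ : M →ₗ[K] ({v : Place K F // 0 < v.ord (algebraMap A F t)} → K),
      ∀ b : M, φ b = 0 → IsNilMod F A t (b : F) := by
  classical
  refine ⟨LinearMap.pi fun v => resK v.1 (hres v.1) ∘ₗ inclO v.1 M (hB v.1 v.2), ?_⟩
  intro b hb
  have hbint : IsIntegral A (b : F) := (hM _).mp b.2
  rw [isNilMod_iff]
  refine ⟨⟨b, hbint⟩, rfl, ?_⟩
  rw [Ideal.radical_eq_sInf, Submodule.mem_sInf]
  rintro Q ⟨hQ, hQp⟩
  set t' : integralClosure A F := algebraMap A (integralClosure A F) t with ht'
  have ht'F : algebraMap (integralClosure A F) F t' = algebraMap A F t := rfl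
  have ht'0 : t' ≠ 0 := by
    intro h0
    apply ht
    rw [← ht'F, h0, map_zero]
  have htQ : t' ∈ Q := hQ (Ideal.subset_span rfl)
  have hQ0 : Q ≠ ⊥ := by
    intro h0
    rw [h0, Ideal.mem_bot] at htQ
    exact ht'0 htQ
  set P : HeightOneSpectrum (integralClosure A F) := ⟨Q, hQp, hQ0⟩ with hP
  set v : Place K F := Places.ofPrime hK P with hv
  have hvt : 0 < v.ord (algebraMap A F t) := by
    rw [← ht'F]
    exact (Places.ord_pos_iff_mem hK P ht'0).mpr htQ
  by_cases hb0 : (⟨b, hbint⟩ : integralClosure A F) = 0
  · rw [hb0]
    exact Q.zero_mem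
  · have hbF : (b : F) ≠ 0 := by
      intro h0
      apply hb0
      exact Subtype.ext h0
    have h1 := congrFun hb ⟨v, hvt⟩
    simp only [LinearMap.pi_apply, LinearMap.comp_apply, Pi.zero_apply] at h1
    rw [resK_eq_zero_iff] at h1
    have hne : (inclO v M (hB v hvt)) b ≠ 0 := by
      intro h0
      apply hbF
      exact congrArg Subtype.val h0
    have h2 := (Places.ord_pos_iff_mem_maximalIdeal v hne).mpr h1
    exact (Places.ord_pos_iff_mem hK P hb0).mp h2

end Fermat.Agent.S20.LB.Adapt

end
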