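/-
S20 / S21 lower bound (LB), piece ADAPT-FIN: `r_a ≤ #{places over x = a}`.
-/
import Mathlib
import Fermat.Agent.S20.LB.AdaptCore
import Fermat.Agent.S20.RRLite.Wrap

set_option autoImplicit false

noncomputable section

open AlgebraicCurve IntermediateField Polynomial Module

namespace Fermat.Agent.S20.LB

open Fermat.Agent.S20.RRLite Fermat.Agent.S24

namespace Adapt

/-- A linear map on `M₂` whose kernel lies in `M` bounds the relative dimension of `M` in `M₂`. -/
theorem relDim_le_of_ker {K W V : Type*} [Field K] [AddCommGroup W] [Module K W] [AddCommGroup V]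
    [Module K V] [Module.Finite K V] (M M₂ : Submodule K W) (φ : M₂ →ₗ[K] V)
    (h : ∀ b : M₂, φ b = 0 → (b : W) ∈ M) : relDim M M₂ ≤ finrank K V := by
  have hle : LinearMap.ker φ ≤ M.submoduleOf M₂ := fun b hb => h b hb
  have e := (LinearMap.quotKerEquivRange φ)
  haveI : Module.Finite K (↥M₂ ⧸ LinearMap.ker φ) := Module.Finite.equiv e.symm
  have h1 : finrank K (↥M₂ ⧸ M.submoduleOf M₂) ≤ finrank K (↥M₂ ⧸ LinearMap.ker φ) :=
    LinearMap.finrank_le_finrank_of_surjective (Submodule.factor_surjective hle)
  have h2 : finrank K (↥M₂ ⧸ LinearMap.ker φ) = finrank K (LinearMap.range φ) := e.finrank_eq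
  have h3 : finrank K (LinearMap.range φ) ≤ finrank K V := Submodule.finrank_le _
  unfold relDim
  omega

/-- The dimension of the space of `K`-valued functions on a finite type. -/
theorem finrank_fun {K S : Type*} [Field K] [Finite S] : finrank K (S → K) = Nat.card S := by
  have : Fintype S := Fintype.ofFinite S
  rw [Module.finrank_fintype_fun_eq_card, Nat.card_eq_fintype_card]

end Adapt

variable (K F : Type*) [Field K] [Field F] [Algebra K F]

theorem rFin_le_zeroCount [IsAlgClosed K] [CharZero K] (x : F) (hx : Transcendental K x)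
    [FiniteDimensional K⟮x⟯ F] (a : K) :
    letI := Wrap.polyAlgebra (K := K) x
    letI := Wrap.ratAlgebra x hx
    haveI := Wrap.tower_poly (K := K) x
    haveI := (Wrap.tower_rat x hx).1
    haveI := (Wrap.tower_rat x hx).2
    rFin K F a ≤ zeroCount K (x - algebraMap K F a) := by
  letI := Wrap.polyAlgebra (K := K) x
  letI := Wrap.ratAlgebra x hx
  haveI := Wrap.tower_poly (K := K) x
  haveI := (Wrap.tower_rat x hx).1
  haveI := (Wrap.tower_rat x hx).2
  obtain ⟨hfd, -⟩ := Wrap.finrank_eq x hx
  haveI := hfd
  haveI := Wrap.isSeparable x hx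
  haveI : IsDedekindDomain (integralClosure K[X] F) :=
    integralClosure.isDedekindDomain K[X] (RatFunc K) F
  haveI : IsFractionRing (integralClosure K[X] F) F :=
    integralClosure.isFractionRing_of_finite_extension (RatFunc K) F
  have hK : ∀ c : K, ∃ b : integralClosure K[X] F,
      algebraMap (integralClosure K[X] F) F b = algebraMap K F c := fun c =>
    ⟨algebraMap K[X] (integralClosure K[X] F) (C c), by
      show algebraMap K[X] F (C c) = algebraMap K F c
      rw [Wrap.algebraMap_poly_eq, aeval_C]⟩
  have ht : algebraMap K[X] F (X - C a) = x - algebraMap K F a := by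
    rw [Wrap.algebraMap_poly_eq, map_sub, aeval_X, aeval_C]
  have ht0 : algebraMap K[X] F (X - C a) ≠ 0 := by
    rw [ht]
    intro h0
    apply hx
    rw [sub_eq_zero.mp h0]
    exact isAlgebraic_algebraMap a
  have hB : ∀ v : Place K F, 0 < v.ord (algebraMap K[X] F (X - C a)) →
      ∀ b ∈ B0K K F, b ∈ v.toValuationSubring := by
    intro v hv b hb
    rw [ht] at hv
    have hxa : x - algebraMap K F a ∈ v.toValuationSubring := Places.mem_of_ord_pos v hv
    have hxv : x ∈ v.toValuationSubring := by
      have := add_mem hxa (v.algebraMap_mem' a)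
      simpa using this
    have hp : ∀ p : K[X], algebraMap K[X] F p ∈ v.toValuationSubring := by
      intro p
      rw [Wrap.algebraMap_poly_eq]
      induction p using Polynomial.induction_on' with
      | add p q hp hq =>
        rw [map_add]
        exact add_mem hp hq
      | monomial n c =>
        rw [aeval_monomial]
        exact mul_mem (v.algebraMap_mem' c) (pow_mem hxv n)
    have hint : IsIntegral v.toValuationSubring b :=
      IsIntegral.map_of_comp_eq
        ((algebraMap K[X] F).codRestrict v.toValuationSubring.toSubring hp) (RingHom.id F)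
        (RingHom.ext fun p => rfl) ((mem_B0K K F).mp hb)
    obtain ⟨y, hy⟩ := (IsIntegrallyClosed.isIntegral_iff (R := v.toValuationSubring) (K := F)).mp hint
    rw [← hy]
    exact y.2
  obtain ⟨φ, hφ⟩ := Adapt.exists_linearMap (K := K) (F := F) (A := K[X]) hK (X - C a) ht0
    (fun v => Places.algebraMap_residueField_surjective x v) (B0K K F) (fun b => Iff.rfl) hB
  have hfin : Finite {v : Place K F // 0 < v.ord (algebraMap K[X] F (X - C a))} := by
    rw [ht]
    exact (Places.sum_ord_zeros_sub x hx a).1.to_subtype
  have h1 := Adapt.relDim_le_of_ker (Rad0 K F a) (B0K K F) φ (fun b hb => hφ b hb)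
  rw [Adapt.finrank_fun] at h1
  have h2 : Nat.card {v : Place K F // 0 < v.ord (algebraMap K[X] F (X - C a))}
      = zeroCount K (x - algebraMap K F a) := by
    unfold zeroCount
    rw [ht]
  rw [← h2]
  exact h1

end Fermat.Agent.S20.LB

end
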