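import Mathlib

/-!
# `B₀ ∩ B∞ = K` (spare abstract form of piece (3) of the RR-LITE core)

An element of `F` that is integral over two integrally closed domains `A0`, `A1` with common
fraction field `E` and `A0 ∩ A1 ⊆ K` (inside `E`) lies in the algebraically closed field `K`.
-/

namespace Fermat.Agent.S20.LB.Const

open Polynomial

/-- **`B₀ ∩ B∞ = K`.** Let `K` be algebraically closed, `E/K` a field, `F/E` a field, and `A0`,
`A1` integrally closed domains with fraction field `E` whose intersection inside `E` is
contained in `K`. An element of `F` integral over both `A0` and `A1` lies in `K`. -/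
theorem exists_algebraMap_eq_of_isIntegral (K E F A0 A1 : Type*) [Field K] [IsAlgClosed K]
    [Field E] [Field F] [Algebra K E] [Algebra E F] [Algebra K F] [IsScalarTower K E F]
    [CommRing A0] [IsDomain A0] [IsIntegrallyClosed A0] [Algebra A0 E] [IsFractionRing A0 E]
    [Algebra A0 F] [IsScalarTower A0 E F]
    [CommRing A1] [IsDomain A1] [IsIntegrallyClosed A1] [Algebra A1 E] [IsFractionRing A1 E]
    [Algebra A1 F] [IsScalarTower A1 E F]
    (hK : ∀ (a0 : A0) (a1 : A1), algebraMap A0 E a0 = algebraMap A1 E a1 →
      ∃ c : K, algebraMap K E c = algebraMap A0 E a0)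
    (b : F) (h0 : IsIntegral A0 b) (h1 : IsIntegral A1 b) : ∃ c : K, algebraMap K F c = b := by
  have hA0F : Module.IsTorsionFree A0 F := .trans_faithfulSMul A0 E F
  have hA1F : Module.IsTorsionFree A1 F := .trans_faithfulSMul A1 E F
  have e0 : minpoly E b = (minpoly A0 b).map (algebraMap A0 E) :=
    minpoly.isIntegrallyClosed_eq_field_fractions' E h0
  have e1 : minpoly E b = (minpoly A1 b).map (algebraMap A1 E) :=
    minpoly.isIntegrallyClosed_eq_field_fractions' E h1
  have hlift : minpoly E b ∈ Polynomial.lifts (algebraMap K E) := by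
    rw [Polynomial.lifts_iff_coeff_lifts]
    intro n
    have c0 : (minpoly E b).coeff n = algebraMap A0 E ((minpoly A0 b).coeff n) := by
      rw [e0, coeff_map]
    have c1 : (minpoly E b).coeff n = algebraMap A1 E ((minpoly A1 b).coeff n) := by
      rw [e1, coeff_map]
    obtain ⟨c, hc⟩ := hK _ _ (c0.symm.trans c1)
    exact ⟨c, hc.trans c0.symm⟩
  have hbE : IsIntegral E b := h0.tower_top
  obtain ⟨g, hg, -, hgm⟩ :=
    Polynomial.lifts_and_degree_eq_and_monic hlift (minpoly.monic hbE)
  have hbK : IsIntegral K b := by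
    refine ⟨g, hgm, ?_⟩
    have : aeval b g = aeval b (g.map (algebraMap K E)) := by
      rw [aeval_map_algebraMap]
    rw [← aeval_def, this, hg, minpoly.aeval]
  have hdeg : (minpoly K b).degree = 1 :=
    IsAlgClosed.degree_eq_one_of_irreducible K (minpoly.irreducible hbK)
  obtain ⟨c, hc⟩ := minpoly.mem_range_of_degree_eq_one K b hdeg
  exact ⟨c, hc⟩

end Fermat.Agent.S20.LB.Const
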