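/-
S20 / S21 lower bound (LB): the point counts of the function field `FF ℂ N` of `X₀(N)` over `ℂ`
(the S24 model `laurentBaseChange ℂ (modularFunctionFieldFull N)`) over `j = 0`, `j = 1728`
and `j = ∞`, and its degree over `ℂ(j)`.

Everything is an instantiation at `L = ℂ`, `ι = id` of the landed S24 pipeline
(`Data.exists_valDatum`, `Degree`, `LocalCount.local_count`).
-/
import Mathlib
import Fermat.Agent.S20.LB.Defs
import Fermat.Agent.S24.Mod.Data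
import Fermat.Agent.S24.Mod.Degree
import Fermat.Agent.S24.Alg.LocalCount
import Fermat.Agent.S24.PlacesMore
import Fermat.Agent.S24.Comb.Count

set_option autoImplicit false

noncomputable section

open AlgebraicCurve IntermediateField CongruenceSubgroup ModularCurve
open scoped MatrixGroups

namespace Fermat.Agent.S20.LB

open Fermat.Agent.S24

/-- The coordinate `j` of the complex model. -/
abbrev xC (N : ℕ) [NeZero N] : ↥(FF ℂ N) := jElt ℂ N

theorem transcendental_xC (N : ℕ) [NeZero N] : Transcendental ℂ (xC N) :=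
  DegreeCore.transcendental_jElt N

instance finiteDimensional_xC (N : ℕ) [NeZero N] : FiniteDimensional ℂ⟮xC N⟯ ↥(FF ℂ N) :=
  Degree.finiteDimensional (RingHom.id ℂ) N

private theorem count_aux (N : ℕ) [NeZero N] {Ω : Type} [Field Ω]
    (w : Valuation Ω (WithZero (Multiplicative ℤ))) (y : ↥(FF ℂ N))
    (hy : ℂ⟮xC N⟯ = ℂ⟮y⟯) (σ : Equiv.Perm (SL(2, ℤ) ⧸ Gamma0 N)) (m : ℕ)
    (dat : Nonempty (ValDatum ℂ w y σ m)) :
    Module.finrank ℂ⟮xC N⟯ ↥(FF ℂ N) = Nat.card (SL(2, ℤ) ⧸ Gamma0 N) ∧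
      zeroCount ℂ y = cyc σ := by
  obtain ⟨dat⟩ := dat
  have : Finite (SL(2, ℤ) ⧸ Gamma0 N) := Subgroup.finite_quotient_of_finiteIndex
  have hfin : FiniteDimensional ℂ⟮y⟯ ↥(FF ℂ N) := hy ▸ finiteDimensional_xC N
  have hle : Module.finrank ℂ⟮y⟯ ↥(FF ℂ N) ≤ Nat.card (SL(2, ℤ) ⧸ Gamma0 N) := by
    have h := Degree.finrank_le (RingHom.id ℂ) N
    have e : Module.finrank ℂ⟮y⟯ ↥(FF ℂ N) = Module.finrank ℂ⟮xC N⟯ ↥(FF ℂ N) := by
      rw [hy]
    rw [e]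
    exact h
  have h := LocalCount.local_count w y hle σ m dat
  refine ⟨?_, h.2.1⟩
  have e : Module.finrank ℂ⟮y⟯ ↥(FF ℂ N) = Module.finrank ℂ⟮xC N⟯ ↥(FF ℂ N) := by
    rw [hy]
  rw [← e]
  exact h.1

theorem finrank_xC (N : ℕ) [NeZero N] :
    Module.finrank ℂ⟮xC N⟯ ↥(FF ℂ N) = Nat.card (SL(2, ℤ) ⧸ Gamma0 N) := by
  obtain ⟨Ω, _, w, winf, -, -, -, hinf⟩ := Data.exists_valDatum (RingHom.id ℂ) N
  exact (count_aux N winf (xC N)⁻¹ (Places.adjoin_inv_eq _) _ _ hinf).1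

theorem zeroCount_zero (N : ℕ) [NeZero N] :
    zeroCount ℂ (xC N - algebraMap ℂ ↥(FF ℂ N) 0) =
      cyc (cosetPerm N (ModularGroup.S * ModularGroup.T)) := by
  obtain ⟨Ω, _, w, winf, -, h0, -, -⟩ := Data.exists_valDatum (RingHom.id ℂ) N
  rw [(count_aux N (w 0) _ (Places.adjoin_sub_eq _ _) _ _ h0).2, Comb.cosetPerm_inv, Comb.cyc_inv]

theorem zeroCount_1728 (N : ℕ) [NeZero N] :
    zeroCount ℂ (xC N - algebraMap ℂ ↥(FF ℂ N) 1728) = cyc (cosetPerm N ModularGroup.S) := by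
  obtain ⟨Ω, _, w, winf, -, -, h1, -⟩ := Data.exists_valDatum (RingHom.id ℂ) N
  rw [(count_aux N (w 1728) _ (Places.adjoin_sub_eq _ _) _ _ h1).2, Comb.cosetPerm_inv,
    Comb.cyc_inv]

theorem zeroCount_inf (N : ℕ) [NeZero N] :
    zeroCount ℂ (xC N)⁻¹ = cyc (cosetPerm N ModularGroup.T) := by
  obtain ⟨Ω, _, w, winf, -, -, -, hinf⟩ := Data.exists_valDatum (RingHom.id ℂ) N
  rw [(count_aux N winf _ (Places.adjoin_inv_eq _) _ _ hinf).2, Comb.cosetPerm_inv, Comb.cyc_inv]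

end Fermat.Agent.S20.LB

end
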