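/-
S20 / S21 lower bound (LB), piece MODEL, part 1: the model `FN N = ℂ(j, j_N) ⊆ Fld N` is fixed by
`Γ₀(N)`, its `SL(2, ℤ)`-translates are parametrised by the cosets, and `j` is transcendental.
-/
import Mathlib
import Fermat.Agent.S20.LB.Defs
import Fermat.Agent.S23.JN

set_option autoImplicit false

noncomputable section

open AlgebraicCurve IntermediateField UpperHalfPlane CongruenceSubgroup Polynomial
open scoped MatrixGroups

namespace Fermat.Agent.S20.LB

open Fermat.Agent.S24 Fermat.Agent.S24.Mero Fermat.Agent.S23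

namespace Model

/-- Polynomials in `j`, as elements of `Mero.ring N`. -/
def polyRing (N : ℕ) [NeZero N] (p : ℂ[X]) : ring N := p.eval₂ (const N) (jElt N)

theorem polyRing_apply (N : ℕ) [NeZero N] (p : ℂ[X]) (z : ℍ) :
    (polyRing N p : ℍ → ℂ) z = p.eval (JN.jFun z) := by
  unfold polyRing
  induction p using Polynomial.induction_on' with
  | add p q hp hq =>
    rw [Polynomial.eval₂_add, Polynomial.eval_add, ← hp, ← hq]
    rfl
  | monomial n a =>
    rw [Polynomial.eval₂_monomial, Polynomial.eval_monomial]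
    rfl

theorem polyRing_injective (N : ℕ) [NeZero N] : Function.Injective (polyRing N) := by
  intro p q h
  rw [← sub_eq_zero]
  apply JN.eq_zero_of_eval_jFun
  intro z
  rw [Polynomial.eval_sub, ← polyRing_apply N p z, ← polyRing_apply N q z, h, sub_self]

theorem aeval_jF (N : ℕ) [NeZero N] (p : ℂ[X]) :
    aeval (jF N) p = algebraMap (ring N) (Fld N) (polyRing N p) := by
  unfold polyRing
  induction p using Polynomial.induction_on' with
  | add p q hp hq => rw [map_add, Polynomial.eval₂_add, map_add, hp, hq]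
  | monomial n a =>
    rw [Polynomial.aeval_monomial, Polynomial.eval₂_monomial, map_mul, map_pow, algebraMap_fld]
    rfl

theorem aeval_jF_injective (N : ℕ) [NeZero N] : Function.Injective (aeval (R := ℂ) (jF N)) := by
  intro p q h
  rw [aeval_jF, aeval_jF] at h
  exact polyRing_injective N (IsFractionRing.injective (ring N) (Fld N) h)

theorem actF_algebraMap_complex (N : ℕ) (γ : SL(2, ℤ)) (c : ℂ) :
    actF N γ (algebraMap ℂ (Fld N) c) = algebraMap ℂ (Fld N) c := by
  rw [algebraMap_fld, actF_algebraMap, act_const]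

theorem actF_jF (N : ℕ) [NeZero N] (γ : SL(2, ℤ)) : actF N γ (jF N) = jF N := by
  rw [jF, actF_algebraMap, act_jElt]

/-- The fixed field of `γ`, as an intermediate field of `Fld N / ℂ`. -/
def fixedField (N : ℕ) (γ : SL(2, ℤ)) : IntermediateField ℂ (Fld N) where
  carrier := {y | actF N γ y = y}
  mul_mem' := by
    intro a b ha hb
    change _ = _ at ha hb ⊢
    rw [map_mul, ha, hb]
  one_mem' := map_one _
  add_mem' := by
    intro a b ha hb
    change _ = _ at ha hb ⊢
    rw [map_add, ha, hb]
  zero_mem' := map_zero _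
  algebraMap_mem' c := actF_algebraMap_complex N γ c
  inv_mem' := by
    intro a ha
    change _ = _ at ha ⊢
    rw [map_inv₀, ha]

theorem mem_fixedField {N : ℕ} {γ : SL(2, ℤ)} {y : Fld N} :
    y ∈ fixedField N γ ↔ actF N γ y = y := Iff.rfl

theorem FN_le_fixedField (N : ℕ) [NeZero N] {γ : SL(2, ℤ)} (hγ : γ ∈ Gamma0 N) :
    FN N ≤ fixedField N γ := by
  refine IntermediateField.adjoin_le_iff.mpr ?_
  rintro y (rfl | rfl)
  · exact actF_jF N γ
  · show actF N γ (jNF N) = jNF N
    rw [jNF, actF_algebraMap, act_jd_of_mem N N dvd_rfl hγ]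

end Model

/-- Elements of the model are invariant under `Γ₀(N)`. -/
theorem actF_eq_of_mem (N : ℕ) [NeZero N] (γ : SL(2, ℤ)) (hγ : γ ∈ Gamma0 N) (f : FN N) :
    actF N γ (f : Fld N) = f :=
  Model.FN_le_fixedField N hγ f.2

/-- The translates of the model are parametrised by the cosets `Γ₀(N) γ`. -/
theorem emb_eq_iff (N : ℕ) [NeZero N] (γ γ' : SL(2, ℤ)) :
    emb N γ = emb N γ' ↔ γ * γ'⁻¹ ∈ Gamma0 N := by
  constructor
  · intro h
    have h1 := congrArg (fun φ : FN N →+* Fld N => φ (yN N)) h
    simp only [emb_apply, coe_yN, jNF, actF_algebraMap] at h1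
    exact (act_jd_self_eq_iff N γ γ').mp (IsFractionRing.injective (ring N) (Fld N) h1)
  · intro h
    refine RingHom.ext fun f => ?_
    have h1 : γ = (γ * γ'⁻¹) * γ' := by group
    rw [emb_apply, emb_apply, h1, actF_mul, actF_eq_of_mem N _ h f]

/-- `j` is transcendental over `ℂ`. -/
theorem transcendental_xN (N : ℕ) [NeZero N] : Transcendental ℂ (xN N) := by
  rw [transcendental_iff]
  intro p hp
  have h1 : aeval (jF N) p = 0 := by
    have h2 := congrArg (FN N).val hp
    rw [← Polynomial.aeval_algHom_apply, map_zero] at h2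
    exact h2
  exact Model.aeval_jF_injective N (by rw [h1, map_zero])

end Fermat.Agent.S20.LB
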