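/-
S20 / S21 lower bound (LB), piece DATA: the valued uniformisation data of the model
`FN N = ℂ(j, j_N) ⊆ Fld N` at the points `j = 0`, `j = 1728` and at infinity.  The embeddings are
`τ i = actF (out i)⁻¹`, `i : SL(2, ℤ) ⧸ Γ₀(N)`.
-/
import Mathlib
import Fermat.Agent.S20.LB.Defs
import Fermat.Agent.S20.LB.ModelBasic
import Fermat.Agent.S24.Defs
import Fermat.Agent.S24.Mod.DataCore
import Fermat.Agent.S24.MeroPoint
import Fermat.Agent.S24.MeroCusp
import Fermat.Agent.S24.JLocal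
import Fermat.Agent.S24.GenusNum
import Fermat.Agent.S24.CombCusp

set_option autoImplicit false

noncomputable section

open AlgebraicCurve IntermediateField UpperHalfPlane CongruenceSubgroup
open scoped MatrixGroups

namespace Fermat.Agent.S20.LB

open Fermat.Agent.S24 Fermat.Agent.S24.Mero Fermat.Agent.S23

namespace Data

/-- The abstract assembly `DataCore.valDatum_of_action`, instantiated for the model `FN N`. -/
theorem valDatum_of (N : ℕ) [NeZero N] (w : Valuation (Fld N) (WithZero (Multiplicative ℤ)))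
    (y : FN N) (g0 : SL(2, ℤ)) (m : ℕ) (hm : 0 < m)
    (hwconst : ∀ c : ℂ, c ≠ 0 → w (algebraMap (ring N) (Fld N) (const N c)) = 1)
    (hy : ∀ γ : SL(2, ℤ), actF N γ (y : Fld N) = y)
    (hwy : w (y : Fld N) = WithZero.exp (-(m : ℤ)))
    (hw : ∀ z : Fld N, w (actF N g0 z) = w z)
    (hdvd : ∀ (d : ℕ) (z : Fld N), z ≠ 0 → actF N (g0 ^ d) z = z →
      ((m / Nat.gcd m d : ℕ) : ℤ) ∣ WithZero.log (w z))
    (hpow : ∀ i : SL(2, ℤ) ⧸ Gamma0 N, g0 ^ m • i = i) :
    Nonempty (ValDatum ℂ w y (cosetPerm N g0⁻¹) m) :=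
  DataCore.valDatum_of_action (K := ℂ) (F := FN N) (Gamma0 N) (actF N)
    (fun γ γ' z => actF_mul γ γ' z) (algebraMap (FN N) (Fld N))
    (fun h hh f => actF_eq_of_mem N h hh f)
    (fun γ γ' h => (emb_eq_iff N γ γ').mp (RingHom.ext h)) w y g0 m hm
    (fun γ c => Model.actF_algebraMap_complex N γ c)
    (fun c hc => hwconst c hc) hy hwy hw hdvd hpow

/-- The datum at a point `z₀` whose stabiliser contains `g`, the multiplier of `g` at `z₀` being
a primitive `m`-th root of unity, `m` the order of `j - j z₀` at `z₀`. -/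
theorem valDatum_point (N : ℕ) [NeZero N] (z0 : ℍ) (g : SL(2, ℤ)) (hg : g • z0 = z0) (m : ℕ)
    (hm : 0 < m)
    (hord : analyticOrderAt (fun w : ℂ => JN.jFun (ofComplex w) - JN.jFun z0) (z0 : ℂ) = m)
    (hprim : IsPrimitiveRoot (mult g z0) m)
    (hpow : ∀ i : SL(2, ℤ) ⧸ Gamma0 N, g ^ m • i = i) :
    Nonempty (ValDatum ℂ (valAt N z0) (xN N - algebraMap ℂ (FN N) (JN.jFun z0))
      (cosetPerm N g⁻¹) m) := by
  have hy : ((xN N - algebraMap ℂ (FN N) (JN.jFun z0) : FN N) : Fld N)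
      = algebraMap (ring N) (Fld N) (jElt N - const N (JN.jFun z0)) := by
    rw [map_sub]
    rfl
  refine valDatum_of N (valAt N z0) _ g m hm (fun c hc => valAt_const N z0 hc) ?_ ?_
    (fun z => valAt_actF N hg z) (fun d z hz hfix => dvd_ordAt_of_fixed N hg hm hprim d hz hfix)
    hpow
  · intro γ
    rw [hy, actF_algebraMap, map_sub, act_jElt, act_const]
  · rw [hy]
    exact valAt_jElt_sub N z0 hord

theorem pow_smul_of_eq_neg_one (N : ℕ) {g : SL(2, ℤ)} {m : ℕ} (h : g ^ m = -1)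
    (i : SL(2, ℤ) ⧸ Gamma0 N) : g ^ m • i = i := by
  rw [h]
  exact GenusNum.neg_one_smul N i

theorem T_pow_smul (N : ℕ) (i : SL(2, ℤ) ⧸ Gamma0 N) : (ModularGroup.T ^ N) • i = i := by
  induction i using QuotientGroup.induction_on with
  | H g =>
    show ((ModularGroup.T ^ N * g : SL(2, ℤ)) : SL(2, ℤ) ⧸ Gamma0 N) = g
    rw [← zpow_natCast, Comb.mk_eq_mk_iff, Comb.T_zpow_mul_apply_zero_zero,
      Comb.T_zpow_mul_apply_one_zero, ZMod.intCast_zmod_eq_zero_iff_dvd]
    exact ⟨g 1 0 * g 1 0, by ring⟩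

end Data

/-- The datum of the model at `j = 0` (base point `ρ`, stabiliser generated by `S * T`). -/
theorem valDatum_zero (N : ℕ) [NeZero N] :
    Nonempty (ValDatum ℂ (valAt N JLocal.rho) (xN N - algebraMap ℂ (FN N) 0)
      (cosetPerm N (ModularGroup.S * ModularGroup.T)⁻¹) 3) := by
  have hg : (ModularGroup.S * ModularGroup.T) • JLocal.rho = JLocal.rho := by
    rw [← JLocal.gST_eq]
    exact JLocal.gST_smul_rho
  have hord : analyticOrderAt (fun w : ℂ => JN.jFun (ofComplex w) - JN.jFun JLocal.rho)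
      (JLocal.rho : ℂ) = (3 : ℕ) := by
    rw [JLocal.order_jFun, if_pos JLocal.jFun_rho]
    rfl
  have h := Data.valDatum_point N JLocal.rho _ hg 3 (by norm_num) hord
    (isPrimitiveRoot_mult_ST _ JLocal.rho_sq_add)
    (Data.pow_smul_of_eq_neg_one N GenusNum.ST_cube)
  rwa [JLocal.jFun_rho] at h

/-- The datum of the model at `j = 1728` (base point `i`, stabiliser generated by `S`). -/
theorem valDatum_1728 (N : ℕ) [NeZero N] :
    Nonempty (ValDatum ℂ (valAt N UpperHalfPlane.I) (xN N - algebraMap ℂ (FN N) 1728)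
      (cosetPerm N ModularGroup.S⁻¹) 2) := by
  have hne : JN.jFun UpperHalfPlane.I ≠ 0 := by
    rw [JLocal.jFun_I]
    norm_num
  have hord : analyticOrderAt (fun w : ℂ => JN.jFun (ofComplex w) - JN.jFun UpperHalfPlane.I)
      (UpperHalfPlane.I : ℂ) = (2 : ℕ) := by
    rw [JLocal.order_jFun, if_neg hne, if_pos JLocal.jFun_I]
    rfl
  have h := Data.valDatum_point N UpperHalfPlane.I _ JLocal.S_smul_I 2 (by norm_num) hord
    (isPrimitiveRoot_mult_S _ UpperHalfPlane.coe_I)
    (Data.pow_smul_of_eq_neg_one N GenusNum.S_sq)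
  rwa [JLocal.jFun_I] at h

/-- The datum of the model at infinity (the cusp `i∞`, stabiliser generated by `T`). -/
theorem valDatum_inf (N : ℕ) [NeZero N] :
    Nonempty (ValDatum ℂ (valInf N) (xN N)⁻¹ (cosetPerm N ModularGroup.T⁻¹) N) := by
  have hy : (((xN N)⁻¹ : FN N) : Fld N) = (algebraMap (ring N) (Fld N) (jElt N))⁻¹ := rfl
  refine Data.valDatum_of N (valInf N) _ ModularGroup.T N (Nat.pos_of_ne_zero (NeZero.ne N))
    (fun c hc => valInf_const N hc) ?_ ?_ (fun z => valInf_actF_T N z)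
    (fun d z hz hfix => dvd_ordInf_of_fixed N d hz hfix) (Data.T_pow_smul N)
  · intro γ
    rw [hy, map_inv₀, actF_algebraMap, act_jElt]
  · rw [hy]
    exact valInf_inv_jElt N

end Fermat.Agent.S20.LB

end
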