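/-
S20/S21 lower bound, piece DICTAN: a `ℂ`-subspace `V` of `Fld N = Frac (Mero.ring N)` whose
elements are `Γ₀(N)`-invariant and satisfy the valuative conditions "`(j - j τ) y` vanishes at
`τ`" and "`j * (y ∘ γ)` vanishes at the cusp" embeds `ℂ`-linearly into the weight two cusp forms
on `Γ₀(N)` (`y ↦ y * j'`).
-/
import Mathlib
import Fermat.Agent.S20.DictAn
import Fermat.Agent.S20.LB.Defs
import Fermat.Agent.S24.MeroPoint
import Fermat.Agent.S24.MeroCusp

set_option autoImplicit false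

noncomputable section

open UpperHalfPlane Filter Topology Function CongruenceSubgroup
open scoped MatrixGroups ModularForm Manifold Real WithZero

namespace Fermat.Agent.S20.LB

open Fermat.Agent.S23 Fermat.Agent.S24 Fermat.Agent.S24.Mero

namespace DictVal

variable {N : ℕ}

/-! ### From valuations to orders -/

theorem lt_of_toVal_lt {x y : WithTop ℤ} (h : toVal x < toVal y) : y < x := by
  by_contra hcon
  exact absurd (toVal_anti (not_lt.mp hcon)) (not_le.mpr h)

theorem ordRing_lt_of_val_div_lt_one {χ : ℂ → ℍ} {p : ℂ} (h : IsChart N χ p) {a b : ring N}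
    (hb : b ≠ 0)
    (hlt : val h (algebraMap (ring N) (Fld N) a / algebraMap (ring N) (Fld N) b) < 1) :
    ordRing χ p b < ordRing χ p a := by
  rw [map_div₀, val_algebraMap, val_algebraMap] at hlt
  have hb0 : valRing h b ≠ 0 := fun h0 => hb ((valRing_eq_zero_iff h b).mp h0)
  rw [div_lt_one₀ (zero_lt_iff.mpr hb0)] at hlt
  exact lt_of_toVal_lt hlt

/-! ### The three hypotheses of the analytic core -/

/-- Invariance of `u / v` under `γ`, pointwise. -/
theorem cross_of_actF {u v : ring N} (hv : v ≠ 0) {γ : SL(2, ℤ)}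
    (hγ : actF N γ (algebraMap (ring N) (Fld N) u / algebraMap (ring N) (Fld N) v) =
      algebraMap (ring N) (Fld N) u / algebraMap (ring N) (Fld N) v) (z : ℍ) :
    (u : ℍ → ℂ) (γ • z) * (v : ℍ → ℂ) z = (u : ℍ → ℂ) z * (v : ℍ → ℂ) (γ • z) := by
  have hv' := algebraMap_ne_zero hv
  have hav : act N γ v ≠ 0 := (act N γ).map_ne_zero_iff.mpr hv
  rw [map_div₀, actF_algebraMap, actF_algebraMap,
    div_eq_div_iff (algebraMap_ne_zero hav) hv'] at hγ
  have hab : act N γ u * v = u * act N γ v := by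
    apply IsFractionRing.injective (ring N) (Fld N)
    rw [map_mul, map_mul, hγ]
  exact congrFun (congrArg Subtype.val hab) z

/-- The condition at a point of the upper half plane. -/
theorem hfin_of_valAt [NeZero N] {u v : ring N} (hv : v ≠ 0) (τ : ℍ)
    (h : valAt N τ (algebraMap (ring N) (Fld N) (jElt N - const N (JN.jFun τ)) *
      (algebraMap (ring N) (Fld N) u / algebraMap (ring N) (Fld N) v)) < 1) :
    analyticOrderAt ((v : ℍ → ℂ) ∘ ofComplex) (τ : ℂ) + 1 ≤
      analyticOrderAt (fun w : ℂ => (u : ℍ → ℂ) (ofComplex w) *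
        (JN.jFun (ofComplex w) - JN.jFun τ)) (τ : ℂ) := by
  set a : ring N := u * (jElt N - const N (JN.jFun τ)) with ha
  have e : algebraMap (ring N) (Fld N) (jElt N - const N (JN.jFun τ)) *
      (algebraMap (ring N) (Fld N) u / algebraMap (ring N) (Fld N) v) =
      algebraMap (ring N) (Fld N) a / algebraMap (ring N) (Fld N) v := by
    rw [ha, map_mul]
    ring
  rw [e] at h
  have hlt := ordRing_lt_of_val_div_lt_one (isChart_point N τ) hv h
  rw [ordRing, ordRing, (analyticAt_comp_ofComplex v τ).meromorphicOrderAt_eq,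
    (analyticAt_comp_ofComplex a τ).meromorphicOrderAt_eq] at hlt
  have hlt' : analyticOrderAt ((v : ℍ → ℂ) ∘ ofComplex) (τ : ℂ) <
      analyticOrderAt ((a : ℍ → ℂ) ∘ ofComplex) (τ : ℂ) :=
    (ENat.strictMono_map_iff.mpr Nat.strictMono_cast).lt_iff_lt.mp hlt
  exact Order.add_one_le_of_lt hlt'

/-- The condition at the cusps. -/
theorem hcusp_of_valInf [NeZero N] {u v : ring N} (hv : v ≠ 0) (γ : SL(2, ℤ))
    (h : valInf N (jF N * actF N γ
      (algebraMap (ring N) (Fld N) u / algebraMap (ring N) (Fld N) v)) < 1) :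
    Tendsto (fun z : ℍ => (u : ℍ → ℂ) (γ • z) * JN.jFun z / (v : ℍ → ℂ) (γ • z)) atImInfty
      (𝓝 0) := by
  set a : ring N := act N γ u * jElt N with ha
  set b : ring N := act N γ v with hb
  have hb0 : b ≠ 0 := (act N γ).map_ne_zero_iff.mpr hv
  have e : jF N * actF N γ (algebraMap (ring N) (Fld N) u / algebraMap (ring N) (Fld N) v) =
      algebraMap (ring N) (Fld N) a / algebraMap (ring N) (Fld N) b := by
    rw [map_div₀, actF_algebraMap, actF_algebraMap, jF, ha, map_mul]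
    ring
  rw [e] at h
  have hlt := ordRing_lt_of_val_div_lt_one (isChart_inf N) hb0 h
  have hma := (isChart_inf N).mero a
  have hmb := (isChart_inf N).mero b
  have hne := (isChart_inf N).ne_top b hb0
  have hpos : 0 < meromorphicOrderAt
      (((a : ℍ → ℂ) ∘ chartInf N) / ((b : ℍ → ℂ) ∘ chartInf N)) 0 := by
    rw [meromorphicOrderAt_div hma hmb]
    rw [ordRing, ordRing] at hlt
    lift meromorphicOrderAt ((b : ℍ → ℂ) ∘ chartInf N) 0 to ℤ using hne with n hn
    cases hm : meromorphicOrderAt ((a : ℍ → ℂ) ∘ chartInf N) 0 with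
    | top => simp
    | coe m =>
      rw [hm] at hlt
      have hnm : n < m := by exact_mod_cast hlt
      have e2 : ((m : WithTop ℤ) - (n : WithTop ℤ)) = ((m - n : ℤ) : WithTop ℤ) := rfl
      rw [e2]
      exact_mod_cast sub_pos.mpr hnm
  have ht := (tendsto_zero_of_meromorphicOrderAt_pos hpos).comp (tendsto_qParam_punctured N)
  refine ht.congr fun z => ?_
  have ea := cuspFn_qParam (f := (a : ℍ → ℂ)) (periodic_of_mem a) z
  have eb := cuspFn_qParam (f := (b : ℍ → ℂ)) (periodic_of_mem b) z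
  simp only [Function.comp_apply, Pi.div_apply]
  rw [cuspFn] at ea eb
  rw [ea, eb]
  rfl

/-! ### The relation "`f = y * j'`" -/

theorem exists_ne_zero {v : ring N} (hv : v ≠ 0) : ∃ z, (v : ℍ → ℂ) z ≠ 0 := by
  by_contra hcon
  push Not at hcon
  exact hv (Subtype.ext (funext hcon))

/-- `f` is the cusp form `y * j'`: for some representation `y = u / v`, `f * v = u * j'`. -/
def Rel (N : ℕ) (y : Fld N) (f : CuspForm (Gamma0 N) 2) : Prop :=
  ∃ u v : ring N, v ≠ 0 ∧ y * algebraMap (ring N) (Fld N) v = algebraMap (ring N) (Fld N) u ∧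
    ∀ z : ℍ, f z * (v : ℍ → ℂ) z = (u : ℍ → ℂ) z * DictAn.jDeriv z

/-- Existence of the cusp form `y * j'` under the three valuative conditions. -/
theorem exists_rel (N : ℕ) [NeZero N] (y : Fld N)
    (hinv : ∀ γ ∈ Gamma0 N, actF N γ y = y)
    (hfin : ∀ τ : ℍ,
      valAt N τ (algebraMap (ring N) (Fld N) (jElt N - const N (JN.jFun τ)) * y) < 1)
    (hcusp : ∀ γ : SL(2, ℤ), valInf N (jF N * actF N γ y) < 1) :
    ∃ f : CuspForm (Gamma0 N) 2, Rel N y f := by
  obtain ⟨u, v, hv, rfl⟩ := exists_div y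
  obtain ⟨f, hf⟩ := DictAn.exists_cuspForm_of_ratio N (u : ℍ → ℂ) (v : ℍ → ℂ) (holo_of_mem u)
    (holo_of_mem v) (exists_ne_zero hv) (fun γ hγ z => cross_of_actF hv (hinv γ hγ) z)
    (fun τ => hfin_of_valAt hv τ (hfin τ)) (fun γ => hcusp_of_valInf hv γ (hcusp γ))
  exact ⟨f, u, v, hv, div_mul_cancel₀ _ (algebraMap_ne_zero hv), hf⟩

theorem rel_unique {y : Fld N} {f f' : CuspForm (Gamma0 N) 2} (h : Rel N y f)
    (h' : Rel N y f') : f = f' := by
  obtain ⟨u, v, hv, hy, hf⟩ := h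
  obtain ⟨u', v', hv', hy', hf'⟩ := h'
  have hcross : u * v' = u' * v := by
    apply IsFractionRing.injective (ring N) (Fld N)
    rw [map_mul, map_mul, ← hy, ← hy']
    ring
  exact DictAn.cuspForm_eq_of_ratio (holo_of_mem v) (holo_of_mem v') (exists_ne_zero hv)
    (exists_ne_zero hv') (fun z => congrFun (congrArg Subtype.val hcross) z) f f' hf hf'

theorem rel_add {y₁ y₂ : Fld N} {f₁ f₂ : CuspForm (Gamma0 N) 2} (h₁ : Rel N y₁ f₁)
    (h₂ : Rel N y₂ f₂) : Rel N (y₁ + y₂) (f₁ + f₂) := by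
  obtain ⟨u₁, v₁, hv₁, hy₁, hf₁⟩ := h₁
  obtain ⟨u₂, v₂, hv₂, hy₂, hf₂⟩ := h₂
  refine ⟨u₁ * v₂ + u₂ * v₁, v₁ * v₂, mul_ne_zero hv₁ hv₂, ?_, fun z => ?_⟩
  · rw [map_add, map_mul, map_mul, map_mul, ← hy₁, ← hy₂]
    ring
  · exact DictAn.cuspForm_add_of_ratio f₁ f₂ hf₁ hf₂ z

theorem rel_smul (c : ℂ) {y : Fld N} {f : CuspForm (Gamma0 N) 2} (h : Rel N y f) :
    Rel N (c • y) (c • f) := by
  obtain ⟨u, v, hv, hy, hf⟩ := h
  refine ⟨const N c * u, v, hv, ?_, fun z => ?_⟩
  · rw [Algebra.smul_def, algebraMap_fld, map_mul, ← hy]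
    ring
  · exact DictAn.cuspForm_smul_of_ratio f c hf z

theorem eq_zero_of_rel_zero {y : Fld N} (h : Rel N y 0) : y = 0 := by
  obtain ⟨u, v, hv, hy, hf⟩ := h
  have hu : (u : ℍ → ℂ) = 0 := DictAn.eq_zero_of_ratio (holo_of_mem u) 0 hf rfl
  have hu' : u = 0 := Subtype.ext hu
  rw [hu', map_zero] at hy
  rcases mul_eq_zero.mp hy with h0 | h0
  · exact h0
  · exact absurd h0 (algebraMap_ne_zero hv)

end DictVal

open DictVal in
/-- **DICTAN.**  A `ℂ`-subspace of `Fld N` whose elements are `Γ₀(N)`-invariant, such that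
`(j - j τ) y` vanishes at `τ` for all `τ` and `j * (y ∘ γ)` vanishes at the cusp for all
`γ ∈ SL(2, ℤ)`, embeds linearly into `S₂(Γ₀(N))` via `y ↦ y * j'`. -/
theorem exists_cuspForm_linear (N : ℕ) [NeZero N] (V : Submodule ℂ (Fld N))
    (hinv : ∀ y ∈ V, ∀ γ ∈ Gamma0 N, actF N γ y = y)
    (hfin : ∀ y ∈ V, ∀ τ : ℍ,
      valAt N τ (algebraMap (ring N) (Fld N) (jElt N - const N (JN.jFun τ)) * y) < 1)
    (hcusp : ∀ y ∈ V, ∀ γ : SL(2, ℤ), valInf N (jF N * actF N γ y) < 1) :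
    ∃ φ : V →ₗ[ℂ] CuspForm (Gamma0 N) 2, Function.Injective φ := by
  have hex : ∀ y : V, ∃ f, Rel N (y : Fld N) f := fun y =>
    exists_rel N y (hinv y y.2) (hfin y y.2) (hcusp y y.2)
  choose φ hφ using hex
  let φl : V →ₗ[ℂ] CuspForm (Gamma0 N) 2 :=
    { toFun := φ
      map_add' := fun y₁ y₂ => rel_unique (hφ (y₁ + y₂)) (rel_add (hφ y₁) (hφ y₂))
      map_smul' := fun c y => rel_unique (hφ (c • y)) (rel_smul c (hφ y)) }
  refine ⟨φl, (injective_iff_map_eq_zero φl).mpr fun y hy => ?_⟩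
  have h0 : φ y = 0 := hy
  have hrel := hφ y
  rw [h0] at hrel
  exact Subtype.ext (eq_zero_of_rel_zero hrel)

end Fermat.Agent.S20.LB
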