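/-
S20 / S21 lower bound (LB), piece DICT: a space `Ω` of tame elements of the function field
`FF ℂ N` of `X₀(N)` over `ℂ` (the S24 model) has dimension at most `dim S₂(Γ₀(N))`.

The model is embedded into `Fld N = Frac (Mero.ring N)` by `DataTau.PhiL (RingHom.id ℂ) N`; the
tameness of `h` gives the valuative hypotheses of the analytic cusp form constructor
`exists_cuspForm_linear` (file `DictAn.lean`).
-/
import Mathlib
import Fermat.Agent.S20.LB.Count
import Fermat.Agent.S20.LB.DictAn
import Fermat.Agent.S24.Mod.DataTau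
import Fermat.Agent.S24.MeroPoint
import Fermat.Agent.S24.MeroCusp
import Fermat.Agent.S24.JLocal
import Fermat.Agent.S23.Denominators

set_option autoImplicit false

noncomputable section

open AlgebraicCurve IntermediateField UpperHalfPlane CongruenceSubgroup ModularCurve
open scoped MatrixGroups

namespace Fermat.Agent.S20.LB

open Fermat.Agent.S24 Fermat.Agent.S24.Mero Fermat.Agent.S23

namespace DictC

variable (N : ℕ) [NeZero N]

/-- The embedding of the complex model into the field of meromorphic functions. -/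
def Phi : ↥(FF ℂ N) →+* Fld N := DataTau.PhiL (RingHom.id ℂ) N

theorem Phi_algebraMap (c : ℂ) :
    Phi N (algebraMap ℂ ↥(FF ℂ N) c) = algebraMap ℂ (Fld N) c := by
  rw [Phi, DataTau.PhiL_algebraMap, algebraMap_fld]
  rfl

theorem Phi_xC : Phi N (xC N) = jF N := DataTau.PhiL_jElt _ N

theorem Phi_injective : Function.Injective (Phi N) := (Phi N).injective

/-- `Phi` as a `ℂ`-linear map. -/
def PhiLin : ↥(FF ℂ N) →ₗ[ℂ] Fld N where
  toFun := Phi N
  map_add' := map_add _
  map_smul' c f := by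
    rw [Algebra.smul_def, map_mul, Phi_algebraMap, RingHom.id_apply, Algebra.smul_def]

theorem PhiLin_apply (f : ↥(FF ℂ N)) : PhiLin N f = Phi N f := rfl

/-- The image in `Fld N` of a subspace of the model. -/
def image (Ω : Submodule ℂ ↥(FF ℂ N)) : Submodule ℂ (Fld N) := Ω.map (PhiLin N)

theorem mem_image {Ω : Submodule ℂ ↥(FF ℂ N)} {y : Fld N} :
    y ∈ image N Ω ↔ ∃ h ∈ Ω, Phi N h = y := by
  unfold image
  rw [Submodule.mem_map]
  rfl

/-- `j - j(τ)` vanishes at `τ`. -/
theorem valAt_sub_lt_one (τ : ℍ) :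
    valAt N τ (algebraMap (ring N) (Fld N) (Mero.jElt N - const N (JN.jFun τ))) < 1 := by
  have hm := JLocal.order_jFun τ
  have hm' : analyticOrderAt (fun w : ℂ => JN.jFun (ofComplex w) - JN.jFun τ) (τ : ℂ)
      = ((if JN.jFun τ = 0 then 3 else if JN.jFun τ = 1728 then 2 else 1 : ℕ) : ℕ∞) := by
    rw [hm]
    split_ifs <;> rfl
  rw [valAt_jElt_sub N τ hm', ← WithZero.exp_zero, WithZero.exp_lt_exp]
  split_ifs <;> simp

/-- `j` has a pole at the cusp. -/
theorem one_lt_valInf_jF : 1 < valInf N (jF N) := by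
  rw [jF, valInf_jElt, ← WithZero.exp_zero, WithZero.exp_lt_exp]
  exact_mod_cast Nat.pos_of_ne_zero (NeZero.ne N)

theorem actF_jF (γ : SL(2, ℤ)) : actF N γ (jF N) = jF N := by
  rw [jF, actF_algebraMap, act_jElt]

theorem actF_algebraMap_complex (γ : SL(2, ℤ)) (c : ℂ) :
    actF N γ (algebraMap ℂ (Fld N) c) = algebraMap ℂ (Fld N) c := by
  rw [algebraMap_fld, actF_algebraMap, act_const]

/-- The finite-point condition for tame elements. -/
theorem valAt_lt_one_of_tame {h : ↥(FF ℂ N)} (hh : IsTameAt ℂ (xC N) h) (τ : ℍ) :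
    valAt N τ (algebraMap (ring N) (Fld N) (Mero.jElt N - const N (JN.jFun τ)) * Phi N h) < 1 := by
  set v : Valuation ↥(FF ℂ N) (WithZero (Multiplicative ℤ)) := (valAt N τ).comap (Phi N) with hv
  have hconst : ∀ c : ℂ, c ≠ 0 → v (algebraMap ℂ ↥(FF ℂ N) c) = 1 := by
    intro c hc
    rw [hv, Valuation.comap_apply, Phi_algebraMap, algebraMap_fld]
    exact valAt_const N τ hc
  have hx : Phi N (xC N - algebraMap ℂ ↥(FF ℂ N) (JN.jFun τ))
      = algebraMap (ring N) (Fld N) (Mero.jElt N - const N (JN.jFun τ)) := by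
    rw [map_sub, Phi_xC, Phi_algebraMap, algebraMap_fld, jF, map_sub]
  have h1 := (hh v hconst).1 (JN.jFun τ) (by
    rw [hv, Valuation.comap_apply, hx]
    exact valAt_sub_lt_one N τ)
  rwa [hv, Valuation.comap_apply, map_mul, hx] at h1

/-- The cusp condition for tame elements. -/
theorem valInf_lt_one_of_tame {h : ↥(FF ℂ N)} (hh : IsTameAt ℂ (xC N) h) (γ : SL(2, ℤ)) :
    valInf N (jF N * actF N γ (Phi N h)) < 1 := by
  set v : Valuation ↥(FF ℂ N) (WithZero (Multiplicative ℤ)) :=
    (valInf N).comap ((actF N γ : Fld N →+* Fld N).comp (Phi N)) with hv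
  have hconst : ∀ c : ℂ, c ≠ 0 → v (algebraMap ℂ ↥(FF ℂ N) c) = 1 := by
    intro c hc
    rw [hv, Valuation.comap_apply, RingHom.comp_apply, Phi_algebraMap]
    show valInf N (actF N γ (algebraMap ℂ (Fld N) c)) = 1
    rw [actF_algebraMap_complex, algebraMap_fld]
    exact valInf_const N hc
  have hx : ((actF N γ : Fld N →+* Fld N).comp (Phi N)) (xC N) = jF N := by
    rw [RingHom.comp_apply, Phi_xC]
    exact actF_jF N γ
  have h1 := (hh v hconst).2 (by
    rw [hv, Valuation.comap_apply, hx]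
    exact one_lt_valInf_jF N)
  rw [hv, Valuation.comap_apply, map_mul, hx] at h1
  exact h1

end DictC

/-- **DICT**: `h ↦ h · j'` embeds a space of tame elements of the function field of `X₀(N)` over
`ℂ` into `S₂(Γ₀(N))`. -/
theorem finrank_le_of_tame (N : ℕ) [NeZero N] (Ω : Submodule ℂ ↥(FF ℂ N))
    (hΩ : ∀ h ∈ Ω, IsTameAt ℂ (xC N) h) :
    Module.finrank ℂ Ω ≤ Module.finrank ℂ (CuspForm (Gamma0 N) 2) := by
  obtain ⟨φ, hφ⟩ := exists_cuspForm_linear N (DictC.image N Ω)
    (by
      rintro y hy γ hγ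
      obtain ⟨h, -, rfl⟩ := (DictC.mem_image N).mp hy
      exact DataTau.actF_PhiL_of_mem (RingHom.id ℂ) N hγ h)
    (by
      rintro y hy τ
      obtain ⟨h, hh, rfl⟩ := (DictC.mem_image N).mp hy
      exact DictC.valAt_lt_one_of_tame N (hΩ h hh) τ)
    (by
      rintro y hy γ
      obtain ⟨h, hh, rfl⟩ := (DictC.mem_image N).mp hy
      exact DictC.valInf_lt_one_of_tame N (hΩ h hh) γ)
  have : FiniteDimensional ℂ (CuspForm (Gamma0 N) 2) :=
    Denominators.finiteDimensional_cuspForm N 2
  have hinj : Function.Injective (DictC.PhiLin N) := DictC.Phi_injective N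
  have e : Ω ≃ₗ[ℂ] DictC.image N Ω := Submodule.equivMapOfInjective _ hinj Ω
  rw [e.finrank_eq]
  exact LinearMap.finrank_le_finrank_of_injective hφ

end Fermat.Agent.S20.LB
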