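/-
S20 / S21 lower bound (LB), piece DICT, core: a space `Ω` of tame elements of the model
`FN N = ℂ(j, j_N)` satisfies the valuative hypotheses of the analytic cusp form constructor; hence
`dim Ω ≤ dim S₂(Γ₀(N))` as soon as the constructor (`exists_cuspForm_linear`, stated here as a
hypothesis) is available.
-/
import Mathlib
import Fermat.Agent.S20.LB.ModelBasic
import Fermat.Agent.S24.MeroPoint
import Fermat.Agent.S24.MeroCusp
import Fermat.Agent.S24.JLocal
import Fermat.Agent.S23.Denominators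

set_option autoImplicit false

noncomputable section

open AlgebraicCurve IntermediateField UpperHalfPlane CongruenceSubgroup
open scoped MatrixGroups

namespace Fermat.Agent.S20.LB

open Fermat.Agent.S24 Fermat.Agent.S24.Mero Fermat.Agent.S23

namespace Dict

variable (N : ℕ) [NeZero N]

/-- The image in `Fld N` of a subspace of the model. -/
def image (Ω : Submodule ℂ (FN N)) : Submodule ℂ (Fld N) := Ω.map (FN N).val.toLinearMap

theorem mem_image {Ω : Submodule ℂ (FN N)} {y : Fld N} :
    y ∈ image N Ω ↔ ∃ h ∈ Ω, ((h : FN N) : Fld N) = y := by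
  unfold image
  rw [Submodule.mem_map]
  rfl

/-- `j - j(τ)` vanishes at `τ`. -/
theorem valAt_sub_lt_one (τ : ℍ) :
    valAt N τ (algebraMap (ring N) (Fld N) (jElt N - const N (JN.jFun τ))) < 1 := by
  have hm := JLocal.order_jFun τ
  have hm' : analyticOrderAt (fun w : ℂ => JN.jFun (ofComplex w) - JN.jFun τ) (τ : ℂ)
      = ((if JN.jFun τ = 0 then 3 else if JN.jFun τ = 1728 then 2 else 1 : ℕ) : ℕ∞) := by
    rw [hm]
    split_ifs <;> rfl
  rw [valAt_jElt_sub N τ hm', ← WithZero.exp_zero, WithZero.exp_lt_exp]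
  split_ifs <;> simp

/-- `j` has a pole at the cusp. -/
theorem one_lt_valInf_jF : 1 < valInf N (jF N) := by
  rw [jF, valInf_jElt, ← WithZero.exp_zero, WithZero.exp_lt_exp]
  exact_mod_cast Nat.pos_of_ne_zero (NeZero.ne N)

theorem coe_algebraMap (c : ℂ) :
    ((algebraMap ℂ (FN N) c : FN N) : Fld N) = algebraMap (ring N) (Fld N) (const N c) := rfl

/-- The finite-point condition for tame elements. -/
theorem valAt_lt_one_of_tame {h : FN N} (hh : IsTameAt ℂ (xN N) h) (τ : ℍ) :
    valAt N τ (algebraMap (ring N) (Fld N) (jElt N - const N (JN.jFun τ)) * (h : Fld N)) < 1 := by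
  set v : Valuation (FN N) (WithZero (Multiplicative ℤ)) :=
    (valAt N τ).comap (algebraMap (FN N) (Fld N)) with hv
  have hconst : ∀ c : ℂ, c ≠ 0 → v (algebraMap ℂ (FN N) c) = 1 := by
    intro c hc
    rw [hv, Valuation.comap_apply]
    exact valAt_const N τ hc
  have hx : ((xN N - algebraMap ℂ (FN N) (JN.jFun τ) : FN N) : Fld N)
      = algebraMap (ring N) (Fld N) (jElt N - const N (JN.jFun τ)) := by
    rw [map_sub]
    rfl
  have h1 := (hh v hconst).1 (JN.jFun τ) (by
    rw [hv, Valuation.comap_apply]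
    show valAt N τ ((xN N - algebraMap ℂ (FN N) (JN.jFun τ) : FN N) : Fld N) < 1
    rw [hx]
    exact valAt_sub_lt_one N τ)
  rw [hv, Valuation.comap_apply] at h1
  have h2 : algebraMap (FN N) (Fld N) ((xN N - algebraMap ℂ (FN N) (JN.jFun τ)) * h)
      = algebraMap (ring N) (Fld N) (jElt N - const N (JN.jFun τ)) * (h : Fld N) := by
    rw [map_mul, ← hx]
    rfl
  rwa [h2] at h1

/-- The cusp condition for tame elements. -/
theorem valInf_lt_one_of_tame {h : FN N} (hh : IsTameAt ℂ (xN N) h) (γ : SL(2, ℤ)) :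
    valInf N (jF N * actF N γ (h : Fld N)) < 1 := by
  set v : Valuation (FN N) (WithZero (Multiplicative ℤ)) := (valInf N).comap (emb N γ) with hv
  have hconst : ∀ c : ℂ, c ≠ 0 → v (algebraMap ℂ (FN N) c) = 1 := by
    intro c hc
    rw [hv, Valuation.comap_apply, emb_apply]
    have : ((algebraMap ℂ (FN N) c : FN N) : Fld N) = algebraMap ℂ (Fld N) c := rfl
    rw [this, Model.actF_algebraMap_complex]
    exact valInf_const N hc
  have h1 := (hh v hconst).2 (by
    rw [hv, Valuation.comap_apply, emb_apply, coe_xN, Model.actF_jF]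
    exact one_lt_valInf_jF N)
  rw [hv, Valuation.comap_apply, emb_apply] at h1
  have h2 : ((xN N * h : FN N) : Fld N) = jF N * (h : Fld N) := rfl
  rwa [h2, map_mul, Model.actF_jF] at h1

/-- **DICT, core**: given the analytic cusp form constructor (hypothesis `hlin`), a space of tame
elements of the model has dimension at most `dim S₂(Γ₀(N))`. -/
theorem finrank_le_of_tame_of
    (hlin : ∀ V : Submodule ℂ (Fld N),
      (∀ y ∈ V, ∀ γ ∈ Gamma0 N, actF N γ y = y) →
      (∀ y ∈ V, ∀ τ : ℍ,
        valAt N τ (algebraMap (ring N) (Fld N) (jElt N - const N (JN.jFun τ)) * y) < 1) →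
      (∀ y ∈ V, ∀ γ : SL(2, ℤ), valInf N (jF N * actF N γ y) < 1) →
      ∃ φ : V →ₗ[ℂ] CuspForm (Gamma0 N) 2, Function.Injective φ)
    (Ω : Submodule ℂ (FN N)) (hΩ : ∀ h ∈ Ω, IsTameAt ℂ (xN N) h) :
    Module.finrank ℂ Ω ≤ Module.finrank ℂ (CuspForm (Gamma0 N) 2) := by
  obtain ⟨φ, hφ⟩ := hlin (image N Ω)
    (by
      rintro y hy γ hγ
      obtain ⟨h, -, rfl⟩ := (mem_image N).mp hy
      exact actF_eq_of_mem N γ hγ h)
    (by
      rintro y hy τ
      obtain ⟨h, hh, rfl⟩ := (mem_image N).mp hy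
      exact valAt_lt_one_of_tame N (hΩ h hh) τ)
    (by
      rintro y hy γ
      obtain ⟨h, hh, rfl⟩ := (mem_image N).mp hy
      exact valInf_lt_one_of_tame N (hΩ h hh) γ)
  have : FiniteDimensional ℂ (CuspForm (Gamma0 N) 2) :=
    Denominators.finiteDimensional_cuspForm N 2
  have hinj : Function.Injective (FN N).val.toLinearMap := fun a b hab => Subtype.ext hab
  have e : Ω ≃ₗ[ℂ] image N Ω := Submodule.equivMapOfInjective _ hinj Ω
  rw [e.finrank_eq]
  exact LinearMap.finrank_le_finrank_of_injective hφ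

end Dict

end Fermat.Agent.S20.LB
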