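/-
S20 / S21 lower bound (LB), piece DICT for the complex model `FF ℂ N` (the S24 function field
of `X₀(N)` at `L = ℂ`): a `ℂ`-subspace `Ω` of tame elements (with respect to the coordinate
`xC N = j`) has dimension at most `dim S₂(Γ₀(N))`.

The elements of `Ω` are transported to `Fld N = Frac (Mero.ring N)` by `DataTau.PhiL`, where the
analytic constructor `exists_cuspForm_linear` (`LB/DictAn.lean`) applies.
-/
import Mathlib
import Fermat.Agent.S20.LB.Count
import Fermat.Agent.S20.LB.DictAn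
import Fermat.Agent.S24.Mod.DataTau
import Fermat.Agent.S24.JLocal
import Fermat.Agent.S23.Denominators

set_option autoImplicit false

noncomputable section

open AlgebraicCurve IntermediateField UpperHalfPlane CongruenceSubgroup
open scoped MatrixGroups

namespace Fermat.Agent.S20.LB

open Fermat.Agent.S23 Fermat.Agent.S24 Fermat.Agent.S24.Mero

namespace DictSpare

variable (N : ℕ) [NeZero N]

/-- The embedding `PhiL` of the complex model into `Fld N`, as a `ℂ`-linear map. -/
def phiLin : ↥(FF ℂ N) →ₗ[ℂ] Fld N where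
  toFun := DataTau.PhiL (RingHom.id ℂ) N
  map_add' := map_add _
  map_smul' c h := by
    rw [Algebra.smul_def, map_mul, DataTau.PhiL_algebraMap, RingHom.id_apply,
      Algebra.smul_def, algebraMap_fld]

theorem phiLin_apply (h : ↥(FF ℂ N)) : phiLin N h = DataTau.PhiL (RingHom.id ℂ) N h := rfl

theorem phiLin_injective : Function.Injective (phiLin N) :=
  (DataTau.PhiL (RingHom.id ℂ) N).injective

theorem phiL_const (c : ℂ) :
    DataTau.PhiL (RingHom.id ℂ) N (algebraMap ℂ ↥(FF ℂ N) c)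
      = algebraMap (ring N) (Fld N) (const N c) := by
  rw [DataTau.PhiL_algebraMap, RingHom.id_apply]

theorem phiL_xC :
    DataTau.PhiL (RingHom.id ℂ) N (xC N) = algebraMap (ring N) (Fld N) (Mero.jElt N) :=
  DataTau.PhiL_jElt (RingHom.id ℂ) N

/-- `j - j(τ)` vanishes at `τ`. -/
theorem valAt_sub_lt_one (τ : ℍ) :
    valAt N τ (algebraMap (ring N) (Fld N) (Mero.jElt N - const N (JN.jFun τ))) < 1 := by
  have hm := JLocal.order_jFun τ
  have hm' : analyticOrderAt (fun w : ℂ => JN.jFun (ofComplex w) - JN.jFun τ) (τ : ℂ)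
      = ((if JN.jFun τ = 0 then 3 else if JN.jFun τ = 1728 then 2 else 1 : ℕ) : ℕ∞) := by
    rw [hm]
    split_ifs <;> rfl
  rw [valAt_jElt_sub N τ hm', ← WithZero.exp_zero, WithZero.exp_lt_exp]
  split_ifs <;> simp

/-- `j` has a pole at the cusp. -/
theorem one_lt_valInf_jF : 1 < valInf N (jF N) := by
  rw [jF, valInf_jElt, ← WithZero.exp_zero, WithZero.exp_lt_exp]
  exact_mod_cast Nat.pos_of_ne_zero (NeZero.ne N)

/-- The finite-point condition for tame elements. -/
theorem valAt_lt_one_of_tame {h : ↥(FF ℂ N)} (hh : IsTameAt ℂ (xC N) h) (τ : ℍ) :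
    valAt N τ (algebraMap (ring N) (Fld N) (Mero.jElt N - const N (JN.jFun τ))
      * DataTau.PhiL (RingHom.id ℂ) N h) < 1 := by
  set v : Valuation ↥(FF ℂ N) (WithZero (Multiplicative ℤ)) :=
    (valAt N τ).comap (DataTau.PhiL (RingHom.id ℂ) N) with hv
  have hconst : ∀ c : ℂ, c ≠ 0 → v (algebraMap ℂ ↥(FF ℂ N) c) = 1 := by
    intro c hc
    rw [hv, Valuation.comap_apply, phiL_const]
    exact valAt_const N τ hc
  have hx : DataTau.PhiL (RingHom.id ℂ) N (xC N - algebraMap ℂ ↥(FF ℂ N) (JN.jFun τ))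
      = algebraMap (ring N) (Fld N) (Mero.jElt N - const N (JN.jFun τ)) := by
    rw [map_sub, map_sub, phiL_const, phiL_xC]
  have h1 := (hh v hconst).1 (JN.jFun τ) (by
    rw [hv, Valuation.comap_apply, hx]
    exact valAt_sub_lt_one N τ)
  rwa [hv, Valuation.comap_apply, map_mul, hx] at h1

/-- The cusp condition for tame elements. -/
theorem valInf_lt_one_of_tame {h : ↥(FF ℂ N)} (hh : IsTameAt ℂ (xC N) h) (γ : SL(2, ℤ)) :
    valInf N (jF N * actF N γ (DataTau.PhiL (RingHom.id ℂ) N h)) < 1 := by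
  set v : Valuation ↥(FF ℂ N) (WithZero (Multiplicative ℤ)) :=
    (valInf N).comap ((actF N γ).toRingHom.comp (DataTau.PhiL (RingHom.id ℂ) N)) with hv
  have hact : ∀ f : ↥(FF ℂ N),
      ((actF N γ).toRingHom.comp (DataTau.PhiL (RingHom.id ℂ) N)) f
        = actF N γ (DataTau.PhiL (RingHom.id ℂ) N f) := fun f => rfl
  have hconst : ∀ c : ℂ, c ≠ 0 → v (algebraMap ℂ ↥(FF ℂ N) c) = 1 := by
    intro c hc
    rw [hv, Valuation.comap_apply, hact, phiL_const, actF_algebraMap, act_const]
    exact valInf_const N hc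
  have hxj : actF N γ (DataTau.PhiL (RingHom.id ℂ) N (xC N)) = jF N := by
    rw [phiL_xC, actF_algebraMap, act_jElt, jF]
  have h1 := (hh v hconst).2 (by
    rw [hv, Valuation.comap_apply, hact, hxj]
    exact one_lt_valInf_jF N)
  rwa [hv, Valuation.comap_apply, hact, map_mul, map_mul, hxj] at h1

/-- **DICT** for the complex model: a space of tame elements of `FF ℂ N` has dimension at most
`dim S₂(Γ₀(N))`. -/
theorem finrank_le_of_tame (Ω : Submodule ℂ ↥(FF ℂ N))
    (hΩ : ∀ h ∈ Ω, IsTameAt ℂ (xC N) h) :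
    Module.finrank ℂ Ω ≤ Module.finrank ℂ (CuspForm (Gamma0 N) 2) := by
  obtain ⟨φ, hφ⟩ := exists_cuspForm_linear N (Ω.map (phiLin N))
    (by
      rintro y hy γ hγ
      obtain ⟨h, -, rfl⟩ := Submodule.mem_map.mp hy
      exact DataTau.actF_PhiL_of_mem (RingHom.id ℂ) N hγ h)
    (by
      rintro y hy τ
      obtain ⟨h, hh, rfl⟩ := Submodule.mem_map.mp hy
      exact valAt_lt_one_of_tame N (hΩ h hh) τ)
    (by
      rintro y hy γ
      obtain ⟨h, hh, rfl⟩ := Submodule.mem_map.mp hy
      exact valInf_lt_one_of_tame N (hΩ h hh) γ)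
  have : FiniteDimensional ℂ (CuspForm (Gamma0 N) 2) :=
    Denominators.finiteDimensional_cuspForm N 2
  have e : Ω ≃ₗ[ℂ] Ω.map (phiLin N) := Submodule.equivMapOfInjective _ (phiLin_injective N) Ω
  rw [e.finrank_eq]
  exact LinearMap.finrank_le_finrank_of_injective hφ

end DictSpare

end Fermat.Agent.S20.LB

end
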