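/-
S20, lower bound route, piece EVAL0: for a `Γ₀(N)`-invariant element `b` of `Mero.ring N`, the
product of `T - b ∘ γ⁻¹` over the cosets `γ Γ₀(N)` has coefficients which are polynomials in `j`;
if `b` vanishes on the whole `SL(2, ℤ)`-orbit of a point `τ₀`, the lower coefficients vanish at
`j τ₀`, so that `b ^ index` lies in `(j - j τ₀)` times the ring generated by `j` and `b`.
-/
import Mathlib
import Fermat.Agent.S23.JN
import Fermat.Agent.S24.MeroRing
import Fermat.Agent.S20.LB.Inv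

set_option autoImplicit false

noncomputable section

open UpperHalfPlane Filter Topology Function Polynomial
open scoped MatrixGroups ModularForm Manifold Real

namespace Fermat.Agent.S20.LB.Eval

open Fermat.Agent.S23 Fermat.Agent.S24 CongruenceSubgroup

variable (N : ℕ)

/-- The translate `b ∘ γ⁻¹` of a `Γ₀(N)`-invariant element, indexed by the left coset `γ Γ₀(N)`. -/
def conj (b : Mero.ring N) (hb : ∀ γ ∈ Gamma0 N, Mero.act N γ b = b)
    (q : SL(2, ℤ) ⧸ Gamma0 N) : Mero.ring N :=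
  Quotient.liftOn' q (fun g => Mero.act N g⁻¹ b) (by
    intro x y hxy
    rw [QuotientGroup.leftRel_apply] at hxy
    have h1 : y⁻¹ = (x⁻¹ * y)⁻¹ * x⁻¹ := by group
    show Mero.act N x⁻¹ b = Mero.act N y⁻¹ b
    rw [h1, Mero.act_mul, hb _ (inv_mem hxy)])

theorem conj_mk (b : Mero.ring N) (hb : ∀ γ ∈ Gamma0 N, Mero.act N γ b = b) (g : SL(2, ℤ)) :
    conj N b hb (QuotientGroup.mk g) = Mero.act N g⁻¹ b := rfl

theorem act_conj (b : Mero.ring N) (hb : ∀ γ ∈ Gamma0 N, Mero.act N γ b = b) (g : SL(2, ℤ))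
    (q : SL(2, ℤ) ⧸ Gamma0 N) :
    Mero.act N g (conj N b hb q) = conj N b hb (g⁻¹ • q) := by
  induction q using QuotientGroup.induction_on with
  | H γ =>
    show Mero.act N g (Mero.act N γ⁻¹ b) = Mero.act N (g⁻¹ * γ)⁻¹ b
    rw [← Mero.act_mul]
    congr 1
    group

/-- The "characteristic polynomial" of `b`: the product of `X - b ∘ γ⁻¹` over the cosets. -/
def charP (b : Mero.ring N) (hb : ∀ γ ∈ Gamma0 N, Mero.act N γ b = b) : (Mero.ring N)[X] :=
  ∏ᶠ q : SL(2, ℤ) ⧸ Gamma0 N, (X - C (conj N b hb q))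

theorem charP_eq [Fintype (SL(2, ℤ) ⧸ Gamma0 N)] (b : Mero.ring N)
    (hb : ∀ γ ∈ Gamma0 N, Mero.act N γ b = b) :
    charP N b hb = ∏ q : SL(2, ℤ) ⧸ Gamma0 N, (X - C (conj N b hb q)) :=
  finprod_eq_prod_of_fintype _

theorem charP_monic (b : Mero.ring N) (hb : ∀ γ ∈ Gamma0 N, Mero.act N γ b = b) :
    (charP N b hb).Monic :=
  monic_finprod_X_sub_C _

theorem charP_natDegree [NeZero N] (b : Mero.ring N) (hb : ∀ γ ∈ Gamma0 N, Mero.act N γ b = b) :
    (charP N b hb).natDegree = (Gamma0 N).index := by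
  let _ : Fintype (SL(2, ℤ) ⧸ Gamma0 N) := Fintype.ofFinite _
  rw [charP_eq, natDegree_finsetProd_X_sub_C_eq_card, Subgroup.index_eq_card,
    Nat.card_eq_fintype_card, Finset.card_univ]

theorem charP_map_act [NeZero N] (b : Mero.ring N) (hb : ∀ γ ∈ Gamma0 N, Mero.act N γ b = b)
    (g : SL(2, ℤ)) :
    (charP N b hb).map (Mero.act N g : Mero.ring N →+* Mero.ring N) = charP N b hb := by
  let _ : Fintype (SL(2, ℤ) ⧸ Gamma0 N) := Fintype.ofFinite _
  rw [charP_eq, Polynomial.map_prod]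
  have h1 : ∀ q : SL(2, ℤ) ⧸ Gamma0 N,
      (X - C (conj N b hb q)).map (Mero.act N g : Mero.ring N →+* Mero.ring N)
        = X - C (conj N b hb (g⁻¹ • q)) := by
    intro q
    rw [Polynomial.map_sub, Polynomial.map_X, Polynomial.map_C]
    congr 2
    exact act_conj N b hb g q
  rw [Finset.prod_congr rfl fun q _ => h1 q]
  exact Equiv.prod_comp (MulAction.toPerm g⁻¹ : Equiv.Perm (SL(2, ℤ) ⧸ Gamma0 N))
    (fun q => X - C (conj N b hb q))

theorem charP_eval_self [NeZero N] (b : Mero.ring N) (hb : ∀ γ ∈ Gamma0 N, Mero.act N γ b = b) :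
    (charP N b hb).eval b = 0 := by
  let _ : Fintype (SL(2, ℤ) ⧸ Gamma0 N) := Fintype.ofFinite _
  rw [charP_eq, Polynomial.eval_prod]
  refine Finset.prod_eq_zero (Finset.mem_univ (QuotientGroup.mk (1 : SL(2, ℤ)))) ?_
  rw [conj_mk, inv_one, Mero.act_one]
  simp

/-- Evaluation at a point, as a ring homomorphism. -/
def evalAt (z : ℍ) : Mero.ring N →+* ℂ where
  toFun f := (f : ℍ → ℂ) z
  map_one' := rfl
  map_mul' _ _ := rfl
  map_zero' := rfl
  map_add' _ _ := rfl

@[simp] theorem evalAt_apply (z : ℍ) (f : Mero.ring N) : evalAt N z f = (f : ℍ → ℂ) z := rfl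

theorem charP_coeff_eval_eq_zero [NeZero N] (b : Mero.ring N) (hb : ∀ γ ∈ Gamma0 N, Mero.act N γ b = b)
    (τ0 : ℍ) (h0 : ∀ g : SL(2, ℤ), (b : ℍ → ℂ) (g • τ0) = 0) (k : ℕ)
    (hk : k < (Gamma0 N).index) : ((charP N b hb).coeff k : ℍ → ℂ) τ0 = 0 := by
  let _ : Fintype (SL(2, ℤ) ⧸ Gamma0 N) := Fintype.ofFinite _
  have h1 : (charP N b hb).map (evalAt N τ0) = X ^ (Gamma0 N).index := by
    rw [charP_eq, Polynomial.map_prod]
    have h2 : ∀ q : SL(2, ℤ) ⧸ Gamma0 N, (X - C (conj N b hb q)).map (evalAt N τ0) = X := by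
      intro q
      induction q using QuotientGroup.induction_on with
      | H γ =>
        rw [Polynomial.map_sub, Polynomial.map_X, Polynomial.map_C, conj_mk, evalAt_apply,
          Mero.act_apply, h0, map_zero, sub_zero]
    rw [Finset.prod_congr rfl fun q _ => h2 q, Finset.prod_const, Finset.card_univ,
      Subgroup.index_eq_card, Nat.card_eq_fintype_card]
  have h3 := congrArg (fun p : ℂ[X] => p.coeff k) h1
  simp only [Polynomial.coeff_map, Polynomial.coeff_X_pow, evalAt_apply] at h3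
  rw [h3, if_neg hk.ne]

/-- **EVAL0**. -/
theorem pow_mem (N : ℕ) [NeZero N] (b : Mero.ring N)
    (hb : ∀ γ ∈ Gamma0 N, Mero.act N γ b = b) (τ0 : ℍ)
    (h0 : ∀ g : SL(2, ℤ), (b : ℍ → ℂ) (g • τ0) = 0) :
    ∃ c : Fin (Gamma0 N).index → Polynomial ℂ, (∀ k, (c k).eval (JN.jFun τ0) = 0) ∧
      ∀ z, (b : ℍ → ℂ) z ^ (Gamma0 N).index
        = ∑ k, (c k).eval (JN.jFun z) * (b : ℍ → ℂ) z ^ (k : ℕ) := by
  have hinv : ∀ (k : ℕ) (γ : SL(2, ℤ)),
      Mero.act N γ ((charP N b hb).coeff k) = (charP N b hb).coeff k := by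
    intro k γ
    have h := congrArg (fun p : (Mero.ring N)[X] => p.coeff k) (charP_map_act N b hb γ)
    simp only [Polynomial.coeff_map] at h
    exact h
  choose p hp using fun k : ℕ => Inv.exists_poly_of_invariant N ((charP N b hb).coeff k) (hinv k)
  refine ⟨fun k => -p k, fun k => ?_, fun z => ?_⟩
  · rw [Polynomial.eval_neg, ← hp, charP_coeff_eval_eq_zero N b hb τ0 h0 k k.2, neg_zero]
  · have h1 := charP_eval_self N b hb
    rw [Polynomial.eval_eq_sum_range, charP_natDegree, Finset.sum_range_succ] at h1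
    have h2 : (charP N b hb).coeff (Gamma0 N).index = 1 := by
      have := (charP_monic N b hb).coeff_natDegree
      rwa [charP_natDegree] at this
    rw [h2, one_mul] at h1
    have h3 := congrArg (evalAt N z) h1
    simp only [map_add, map_sum, map_mul, map_pow, map_zero, evalAt_apply] at h3
    rw [Fin.sum_univ_eq_sum_range
      (fun k => (-p k).eval (JN.jFun z) * (b : ℍ → ℂ) z ^ k) (Gamma0 N).index]
    have h4 : ∑ k ∈ Finset.range (Gamma0 N).index, (-p k).eval (JN.jFun z) * (b : ℍ → ℂ) z ^ k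
        = -∑ k ∈ Finset.range (Gamma0 N).index,
            ((charP N b hb).coeff k : ℍ → ℂ) z * (b : ℍ → ℂ) z ^ k := by
      rw [← Finset.sum_neg_distrib]
      refine Finset.sum_congr rfl fun k _ => ?_
      rw [Polynomial.eval_neg, ← hp, neg_mul]
    rw [h4]
    linear_combination h3

end Fermat.Agent.S20.LB.Eval

end
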