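/-
S20, lower bound route, piece INV: an element of the ring `Mero.ring N` which is invariant under
the whole of `SL(2, ℤ)` is a polynomial in the `j`-function.
-/
import Mathlib
import Fermat.Agent.S23.JN
import Fermat.Agent.S23.LevelOne
import Fermat.Agent.S24.MeroRing

set_option autoImplicit false

noncomputable section

open UpperHalfPlane Filter Topology Function ModularForm
open scoped MatrixGroups ModularForm Manifold Real

namespace Fermat.Agent.S20.LB.Inv

open Fermat.Agent.S23 Fermat.Agent.S24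

local notation "Δ" => ModularForm.discriminant

/-- The discriminant is `O (q_N)` at the cusp. -/
theorem exists_norm_discriminant_le (N : ℕ) [NeZero N] :
    ∃ C : ℝ, 0 < C ∧ ∀ᶠ z : ℍ in atImInfty,
      ‖Δ z‖ ≤ C * ‖Function.Periodic.qParam N (z : ℂ)‖ := by
  have h := CuspFormClass.exp_decay_atImInfty (h := 1) CuspForm.discriminant one_pos
    one_mem_strictPeriods_SL
  obtain ⟨C, hC, hCw⟩ := h.exists_pos
  refine ⟨C, hC, ?_⟩
  filter_upwards [hCw.bound] with z hz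
  have hN : (1 : ℝ) ≤ (N : ℝ) := by exact_mod_cast Nat.one_le_iff_ne_zero.mpr (NeZero.ne N)
  have hN0 : (0 : ℝ) < (N : ℝ) := lt_of_lt_of_le one_pos hN
  have him : 0 < z.im := z.im_pos
  rw [Function.Periodic.norm_qParam]
  have h1 : ‖Real.exp (-2 * π * z.im / 1)‖ ≤ Real.exp (-2 * π * (z : ℂ).im / N) := by
    rw [Real.norm_eq_abs, abs_of_pos (Real.exp_pos _)]
    apply Real.exp_le_exp.mpr
    rw [div_one]
    have h2 : (-2 * π * z.im) / N = -(2 * π * z.im / N) := by ring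
    have h3 : -2 * π * z.im = -(2 * π * z.im) := by ring
    show -2 * π * z.im ≤ -2 * π * z.im / N
    rw [h2, h3]
    apply neg_le_neg
    exact div_le_self (by positivity) hN
  calc ‖Δ z‖ ≤ C * ‖Real.exp (-2 * π * z.im / 1)‖ := hz
    _ ≤ C * Real.exp (-2 * π * (z : ℂ).im / N) := mul_le_mul_of_nonneg_left h1 hC.le

/-- An `N`-periodic function on the upper half plane which is meromorphic at the cusp becomes
bounded at `i∞` after multiplication by a power of the discriminant. -/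
theorem exists_isBoundedAtImInfty (N : ℕ) [NeZero N] (f : ℍ → ℂ)
    (hper : ∀ z : ℍ, f ((N : ℝ) +ᵥ z) = f z) (hmer : MeromorphicAt (Mero.cuspFn N f) 0) :
    ∃ n : ℕ, IsBoundedAtImInfty (fun z => Δ z ^ n * f z) := by
  obtain ⟨n, hn⟩ := hmer
  refine ⟨n, ?_⟩
  have hcont : ContinuousAt (fun q : ℂ => (q - 0) ^ n • Mero.cuspFn N f q) 0 := hn.continuousAt
  set M : ℝ := ‖((0 : ℂ) - 0) ^ n • Mero.cuspFn N f 0‖ + 1 with hM
  have hbd1 : ∀ᶠ q in 𝓝 (0 : ℂ), ‖(q - 0) ^ n • Mero.cuspFn N f q‖ < M :=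
    hcont.norm.tendsto.eventually (Iio_mem_nhds (lt_add_one _))
  have hq : Tendsto (fun z : ℍ => Function.Periodic.qParam N (z : ℂ)) atImInfty (𝓝 0) :=
    UpperHalfPlane.qParam_tendsto_atImInfty (Mero.natCast_pos_real N)
  obtain ⟨C, hC, hΔ⟩ := exists_norm_discriminant_le N
  have hM0 : 0 ≤ M := by positivity
  refine Asymptotics.IsBigO.of_bound (C ^ n * M) ?_
  filter_upwards [hq.eventually hbd1, hΔ] with z hz1 hz2
  have hfz : f z = Mero.cuspFn N f (Function.Periodic.qParam N (z : ℂ)) :=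
    (Mero.cuspFn_qParam hper z).symm
  simp only [sub_zero, smul_eq_mul, norm_mul, norm_pow] at hz1
  simp only [norm_mul, norm_pow, Pi.one_apply, norm_one, mul_one]
  rw [hfz]
  calc ‖Δ z‖ ^ n * ‖Mero.cuspFn N f (Function.Periodic.qParam N (z : ℂ))‖
      ≤ (C * ‖Function.Periodic.qParam N (z : ℂ)‖) ^ n
          * ‖Mero.cuspFn N f (Function.Periodic.qParam N (z : ℂ))‖ :=
        mul_le_mul_of_nonneg_right (pow_le_pow_left₀ (norm_nonneg _) hz2 n) (norm_nonneg _)
    _ = C ^ n * (‖Function.Periodic.qParam N (z : ℂ)‖ ^ n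
          * ‖Mero.cuspFn N f (Function.Periodic.qParam N (z : ℂ))‖) := by ring
    _ ≤ C ^ n * M := mul_le_mul_of_nonneg_left hz1.le (pow_nonneg hC.le n)

/-- The weight `12 n` slash action fixes `Δ ^ n * f` when `f` is `SL(2, ℤ)`-invariant. -/
theorem slash_discriminant_pow_mul (f : ℍ → ℂ) (hinv : ∀ (γ : SL(2, ℤ)) (z : ℍ), f (γ • z) = f z)
    (n : ℕ) (γ : SL(2, ℤ)) :
    (fun z => Δ z ^ n * f z) ∣[(12 * (n : ℤ))] γ = fun z => Δ z ^ n * f z := by
  funext z
  rw [ModularForm.SL_slash_apply]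
  have h12 : CuspForm.discriminant (γ • z) = denom γ z ^ (12 : ℤ) * CuspForm.discriminant z :=
    SlashInvariantForm.slash_action_eqn'' (Γ := 𝒮ℒ) CuspForm.discriminant
      (γ := Matrix.SpecialLinearGroup.mapGL ℝ γ) ⟨γ, rfl⟩ z
  simp only [CuspForm.coe_discriminant] at h12
  have hd : denom γ z ≠ 0 := denom_ne_zero _ z
  rw [hinv, h12, mul_pow, ← zpow_natCast (denom γ z ^ (12 : ℤ)) n, ← zpow_mul, zpow_neg]
  field_simp

/-- **INV**: an `SL(2, ℤ)`-invariant element of `Mero.ring N` is a polynomial in `j`. -/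
theorem exists_poly_of_invariant (N : ℕ) [NeZero N] (f : Mero.ring N)
    (hf : ∀ γ : SL(2, ℤ), Mero.act N γ f = f) :
    ∃ p : Polynomial ℂ, ∀ z : ℍ, (f : ℍ → ℂ) z = p.eval (JN.jFun z) := by
  have hinv : ∀ (γ : SL(2, ℤ)) (z : ℍ), (f : ℍ → ℂ) (γ • z) = (f : ℍ → ℂ) z := fun γ z => by
    have := congrFun (congrArg Subtype.val (hf γ)) z
    simpa using this
  have hmod : Mero.IsMod N (f : ℍ → ℂ) := f.2
  have hper : ∀ z : ℍ, (f : ℍ → ℂ) ((N : ℝ) +ᵥ z) = (f : ℍ → ℂ) z := fun z => by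
    have := (hmod.2 1).1 z
    simpa using this
  have hmer : MeromorphicAt (Mero.cuspFn N (f : ℍ → ℂ)) 0 := by
    have := (hmod.2 1).2
    simpa using this
  obtain ⟨n, hbdd⟩ := exists_isBoundedAtImInfty N _ hper hmer
  have hslash := slash_discriminant_pow_mul (f : ℍ → ℂ) hinv n
  have hholo : MDiff (fun z => Δ z ^ n * (f : ℍ → ℂ) z) := by
    have h1 : MDiff (f : ℍ → ℂ) := JN.holo_iff_mdiff.mp hmod.1
    have h2 : MDiff (Δ : ℍ → ℂ) := CuspForm.discriminant.holo'
    exact (h2.pow n).mul h1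
  let G : ModularForm 𝒮ℒ (12 * (n : ℤ)) :=
    { toFun := fun z => Δ z ^ n * (f : ℍ → ℂ) z
      slash_action_eq' := fun _ ⟨γ, hγ⟩ => hγ ▸ hslash γ
      holo' := hholo
      bdd_at_cusps' := fun {c} hc => by
        rw [Subgroup.IsArithmetic.isCusp_iff_isCusp_SL2Z] at hc
        rw [OnePoint.isBoundedAt_iff_forall_SL2Z hc]
        intro γ _
        rw [hslash γ]
        exact hbdd }
  obtain ⟨p, -, hp⟩ := LevelOne.exists_poly_discriminant_pow n G
  refine ⟨p, fun z => ?_⟩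
  have h1 : Δ z ^ n * (f : ℍ → ℂ) z = Δ z ^ n * p.eval (E₄ z ^ 3 / Δ z) := hp z
  exact mul_left_cancel₀ (pow_ne_zero n (discriminant_ne_zero z)) h1

end Fermat.Agent.S20.LB.Inv

end
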