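/-
S20 / S21 lower bound (LB), piece MODEL, part 2: `FN N = ℂ(j)(j_N)` is finite over `ℂ(j)` of degree
at most the index of `Γ₀(N)`: `j_N` is a root of the coset polynomial `∏ (T - j_N ∘ g⁻¹)`, whose
coefficients are `SL(2, ℤ)`-invariant, hence polynomials in `j`.
-/
import Mathlib
import Fermat.Agent.S20.LB.ModelBasic
import Fermat.Agent.S20.LB.Inv

set_option autoImplicit false

noncomputable section

open AlgebraicCurve IntermediateField UpperHalfPlane CongruenceSubgroup Polynomial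
open scoped MatrixGroups

namespace Fermat.Agent.S20.LB

open Fermat.Agent.S24 Fermat.Agent.S24.Mero Fermat.Agent.S23

namespace Model

variable (N : ℕ) [NeZero N]

/-- The cosets of `Γ₀(N)`. -/
abbrev Cos : Type := SL(2, ℤ) ⧸ Gamma0 N

local instance instFiniteCos : Finite (Cos N) := Subgroup.finite_quotient_of_finiteIndex

local instance instFintypeCos : Fintype (Cos N) := Fintype.ofFinite _

/-- The translate of `j_N` by `g⁻¹`. -/
def tr (g : SL(2, ℤ)) : ring N := act N g⁻¹ (jd N N dvd_rfl)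

theorem tr_congr {g g' : SL(2, ℤ)} (h : (g : Cos N) = (g' : Cos N)) : tr N g = tr N g' := by
  unfold tr
  rw [act_jd_self_eq_iff, inv_inv]
  exact QuotientGroup.eq.mp h

theorem act_tr (γ g : SL(2, ℤ)) : act N γ (tr N g) = tr N (γ⁻¹ * g) := by
  unfold tr
  rw [← act_mul, mul_inv_rev, inv_inv]

/-- The translate of `j_N` attached to a coset. -/
def trq (x : Cos N) : ring N := tr N x.out

theorem trq_mk (g : SL(2, ℤ)) : trq N (g : Cos N) = tr N g :=
  tr_congr N (QuotientGroup.out_eq' _)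

theorem act_trq (γ : SL(2, ℤ)) (x : Cos N) : act N γ (trq N x) = trq N (γ⁻¹ • x) := by
  induction x using QuotientGroup.induction_on with
  | H g =>
    rw [trq_mk, act_tr, ← trq_mk]
    rfl

/-- The coset polynomial of `j_N`. -/
def cosetPoly : (ring N)[X] := ∏ x : Cos N, (X - C (trq N x))

theorem cosetPoly_monic : (cosetPoly N).Monic :=
  Polynomial.monic_prod_of_monic _ _ fun _ _ => Polynomial.monic_X_sub_C _

theorem natDegree_cosetPoly : (cosetPoly N).natDegree = Nat.card (Cos N) := by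
  rw [cosetPoly, Polynomial.natDegree_prod_of_monic _ _ fun _ _ => Polynomial.monic_X_sub_C _]
  simp [Nat.card_eq_fintype_card]

theorem map_act_cosetPoly (γ : SL(2, ℤ)) :
    (cosetPoly N).map (act N γ : ring N →+* ring N) = cosetPoly N := by
  unfold cosetPoly
  rw [Polynomial.map_prod]
  simp only [Polynomial.map_sub, Polynomial.map_X, Polynomial.map_C, RingHom.coe_coe, act_trq]
  exact Fintype.prod_equiv (MulAction.toPerm γ⁻¹) _ _ fun x => rfl

theorem eval_cosetPoly : (cosetPoly N).eval (jd N N dvd_rfl) = 0 := by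
  unfold cosetPoly
  rw [Polynomial.eval_prod]
  refine Finset.prod_eq_zero (Finset.mem_univ ((1 : SL(2, ℤ)) : Cos N)) ?_
  rw [trq_mk, tr, inv_one, act_one]
  simp

/-- Polynomials in `j`, as a ring homomorphism. -/
def polyRingHom : ℂ[X] →+* ring N := Polynomial.eval₂RingHom (const N) (jElt N)

theorem polyRingHom_apply (p : ℂ[X]) : polyRingHom N p = polyRing N p := rfl

theorem coeff_cosetPoly_mem (k : ℕ) : (cosetPoly N).coeff k ∈ Set.range (polyRingHom N) := by
  have hinv : ∀ γ : SL(2, ℤ), act N γ ((cosetPoly N).coeff k) = (cosetPoly N).coeff k := by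
    intro γ
    have h := congrArg (fun P : (ring N)[X] => P.coeff k) (map_act_cosetPoly N γ)
    simpa [Polynomial.coeff_map] using h
  obtain ⟨p, hp⟩ := Inv.exists_poly_of_invariant N _ hinv
  refine ⟨p, Subtype.ext (funext fun z => ?_)⟩
  rw [polyRingHom_apply, polyRing_apply, hp z]

/-- The coset polynomial has coefficients in `ℂ[j]`. -/
theorem exists_lift_cosetPoly :
    ∃ R : ℂ[X][X], R.map (polyRingHom N) = cosetPoly N ∧ R.natDegree = Nat.card (Cos N) ∧
      R.Monic := by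
  have hl : cosetPoly N ∈ Polynomial.lifts (polyRingHom N) :=
    (Polynomial.lifts_iff_coeff_lifts _).mpr (coeff_cosetPoly_mem N)
  obtain ⟨R, h1, h2, h3⟩ := Polynomial.lifts_and_natDegree_eq_and_monic hl (cosetPoly_monic N)
  exact ⟨R, h1, by rw [h2, natDegree_cosetPoly], h3⟩

/-- `ℂ[X] → ℂ(j)`, `X ↦ j`. -/
def polyAdj : ℂ[X] →+* ℂ⟮xN N⟯ := (aeval (R := ℂ) (AdjoinSimple.gen ℂ (xN N))).toRingHom

theorem coe_polyAdj (p : ℂ[X]) :
    ((algebraMap ℂ⟮xN N⟯ (FN N) (polyAdj N p) : FN N) : Fld N)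
      = algebraMap (ring N) (Fld N) (polyRingHom N p) := by
  have h1 : algebraMap ℂ⟮xN N⟯ (FN N) (polyAdj N p) = aeval (xN N) p := by
    show (ℂ⟮xN N⟯).val (aeval (AdjoinSimple.gen ℂ (xN N)) p) = aeval (xN N) p
    rw [← Polynomial.aeval_algHom_apply]
    rfl
  have h2 : (FN N).val (aeval (xN N) p) = aeval (jF N) p := by
    rw [← Polynomial.aeval_algHom_apply]
    rfl
  rw [h1, polyRingHom_apply, ← aeval_jF, ← h2]
  rfl

/-- `j_N` is integral over `ℂ(j)`, a root of a monic polynomial of degree the index. -/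
theorem exists_monic_yN :
    ∃ P : (ℂ⟮xN N⟯)[X], P.Monic ∧ P.natDegree = Nat.card (Cos N) ∧ aeval (yN N) P = 0 := by
  obtain ⟨R, h1, h2, h3⟩ := exists_lift_cosetPoly N
  refine ⟨R.map (polyAdj N), h3.map _, by rw [h3.natDegree_map, h2], ?_⟩
  apply Subtype.ext
  show (FN N).val.toRingHom (aeval (yN N) (R.map (polyAdj N))) = 0
  rw [Polynomial.aeval_def, Polynomial.hom_eval₂, Polynomial.eval₂_map]
  have hcomp : (((FN N).val.toRingHom.comp (algebraMap ℂ⟮xN N⟯ (FN N))).comp (polyAdj N))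
      = (algebraMap (ring N) (Fld N)).comp (polyRingHom N) :=
    RingHom.ext fun p => coe_polyAdj N p
  have hy : (FN N).val.toRingHom (yN N) = algebraMap (ring N) (Fld N) (jd N N dvd_rfl) := rfl
  rw [hcomp, hy, ← Polynomial.eval₂_map, h1, Polynomial.eval₂_at_apply, eval_cosetPoly, map_zero]

theorem isIntegral_yN : IsIntegral ℂ⟮xN N⟯ (yN N) := by
  obtain ⟨P, hP, -, h0⟩ := exists_monic_yN N
  exact ⟨P, hP, h0⟩

/-- `FN N` is generated by `j_N` over `ℂ(j)`. -/
theorem adjoin_yN_eq_top : (ℂ⟮xN N⟯)⟮yN N⟯ = ⊤ := by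
  rw [eq_top_iff]
  intro f _
  set E : IntermediateField ℂ (FN N) := ((ℂ⟮xN N⟯)⟮yN N⟯).restrictScalars ℂ with hE
  have hx : xN N ∈ E := by
    show xN N ∈ (ℂ⟮xN N⟯)⟮yN N⟯
    have : xN N = algebraMap ℂ⟮xN N⟯ (FN N) (AdjoinSimple.gen ℂ (xN N)) := rfl
    rw [this]
    exact IntermediateField.algebraMap_mem _ _
  have hy : yN N ∈ E := by
    show yN N ∈ (ℂ⟮xN N⟯)⟮yN N⟯
    exact IntermediateField.mem_adjoin_simple_self _ _
  have hle : FN N ≤ E.map (FN N).val := by
    refine IntermediateField.adjoin_le_iff.mpr ?_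
    rintro y (rfl | rfl)
    · exact ⟨xN N, hx, rfl⟩
    · exact ⟨yN N, hy, rfl⟩
  obtain ⟨e, he, hef⟩ := hle f.2
  have : e = f := Subtype.ext hef
  rw [← this]
  exact he

end Model

/-- `FN N` is finite over `ℂ(j)`. -/
theorem finiteDimensional_FN (N : ℕ) [NeZero N] : FiniteDimensional ℂ⟮xN N⟯ (FN N) := by
  have h1 : FiniteDimensional ℂ⟮xN N⟯ (ℂ⟮xN N⟯)⟮yN N⟯ :=
    IntermediateField.adjoin.finiteDimensional (Model.isIntegral_yN N)
  rw [Model.adjoin_yN_eq_top] at h1
  exact Module.Finite.equiv (IntermediateField.topEquiv (F := ℂ⟮xN N⟯) (E := FN N)).toLinearEquiv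

/-- The degree of `FN N` over `ℂ(j)` is at most the index of `Γ₀(N)`. -/
theorem finrank_FN_le (N : ℕ) [NeZero N] :
    Module.finrank ℂ⟮xN N⟯ (FN N) ≤ Nat.card (SL(2, ℤ) ⧸ Gamma0 N) := by
  obtain ⟨P, hP, hdeg, h0⟩ := Model.exists_monic_yN N
  have h1 := IntermediateField.adjoin.finrank (Model.isIntegral_yN N)
  rw [Model.adjoin_yN_eq_top, IntermediateField.finrank_top'] at h1
  rw [h1, ← hdeg]
  exact Polynomial.natDegree_le_of_dvd (minpoly.dvd _ _ h0) hP.ne_zero

end Fermat.Agent.S20.LB
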