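/-
S20 / S21 lower bound, piece NORMAL: the ring `Mero.ring N` of holomorphic functions on the upper
half plane, all of whose `SL(2, ℤ)`-translates are `N`-periodic and meromorphic at the cusp, is
integrally closed.
-/
import Mathlib
import Fermat.Agent.S24.MeroRing
import Fermat.Agent.S23.Division

set_option autoImplicit false

noncomputable section

open UpperHalfPlane Filter Topology Function
open scoped MatrixGroups ModularForm Manifold Real

namespace Fermat.Agent.S20.LB.Normal

open Fermat.Agent.S23 Fermat.Agent.S24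

/-- A holomorphic function on the upper half plane vanishing on a half plane `A < im z` vanishes
identically. -/
theorem eq_zero_of_eventually_atImInfty {g : ℍ → ℂ} (hg : JN.Holo g)
    (h : ∀ᶠ z in atImInfty, g z = 0) (z : ℍ) : g z = 0 := by
  obtain ⟨A, hA⟩ := (UpperHalfPlane.atImInfty_mem _).mp h
  set U : Set ℂ := {z : ℂ | 0 < z.im} with hU
  have hUo : IsOpen U := isOpen_lt continuous_const Complex.continuous_im
  have hUc : IsPreconnected U := (convex_halfSpace_im_gt 0).isPreconnected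
  have han : AnalyticOnNhd ℂ (g ∘ ofComplex) U := hg.analyticOnNhd hUo
  set B : ℝ := max A 0 + 1 with hB
  have hB0 : 0 < B := by positivity
  have hBA : A < B := lt_of_le_of_lt (le_max_left A 0) (lt_add_one _)
  set z₀ : ℂ := ⟨0, B⟩ with hz₀
  have hz₀U : z₀ ∈ U := by simp [hU, hz₀, hB0]
  have hopen : IsOpen {w : ℂ | A < w.im ∧ 0 < w.im} :=
    (isOpen_lt continuous_const Complex.continuous_im).inter
      (isOpen_lt continuous_const Complex.continuous_im)
  have hev : (g ∘ ofComplex) =ᶠ[𝓝 z₀] 0 := by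
    have hmem : {w : ℂ | A < w.im ∧ 0 < w.im} ∈ 𝓝 z₀ :=
      hopen.mem_nhds ⟨by simpa [hz₀] using hBA, by simpa [hz₀] using hB0⟩
    filter_upwards [hmem] with w hw
    have h1 : ofComplex w = ⟨w, hw.2⟩ := ofComplex_apply_of_im_pos hw.2
    simp only [Function.comp_apply, Pi.zero_apply, h1]
    exact hA ⟨w, hw.2⟩ (le_of_lt hw.1)
  have := han.eqOn_zero_of_preconnected_of_eventuallyEq_zero hUc hz₀U hev
  have hz := this (show (z : ℂ) ∈ U from z.im_pos)
  simpa using hz

/-- `q_N = exp (2 π i z / N)` tends to `0` through non-zero values as `im z → ∞`. -/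
theorem tendsto_qParam (N : ℕ) [NeZero N] :
    Tendsto (fun z : ℍ => Function.Periodic.qParam N (z : ℂ)) atImInfty (𝓝[≠] 0) := by
  refine tendsto_nhdsWithin_iff.mpr
    ⟨qParam_tendsto_atImInfty (Mero.natCast_pos_real N), Filter.Eventually.of_forall fun z => ?_⟩
  simp [Function.Periodic.qParam, Complex.exp_ne_zero]

/-- A non-zero element of the ring, translated by `γ`, has a cusp function which does not
vanish on a punctured neighbourhood of `0`. -/
theorem eventually_cuspFn_ne_zero {N : ℕ} [NeZero N] {f : ℍ → ℂ} (hf : Mero.IsMod N f)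
    (hne : ∃ z, f z ≠ 0) (γ : SL(2, ℤ)) :
    ∀ᶠ q in 𝓝[≠] (0 : ℂ), Mero.cuspFn N (fun z => f (γ • z)) q ≠ 0 := by
  rcases (hf.2 γ).2.eventually_eq_zero_or_eventually_ne_zero with h0 | h0
  · exfalso
    have hq : Tendsto (fun z : ℍ => Function.Periodic.qParam N (z : ℂ)) atImInfty (𝓝[≠] 0) :=
      tendsto_qParam N
    have h1 : ∀ᶠ z in atImInfty, f (γ • z) = 0 := by
      filter_upwards [hq.eventually h0] with z hz
      rwa [Mero.cuspFn_qParam (f := fun z => f (γ • z)) (hf.2 γ).1 z] at hz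
    obtain ⟨z, hz⟩ := hne
    apply hz
    have := eq_zero_of_eventually_atImInfty (Mero.holo_comp_smul hf.1 γ) h1 (γ⁻¹ • z)
    simpa using this
  · exact h0

/-- A non-zero element of the ring, translated by `γ`, does not vanish near `i∞`. -/
theorem eventually_ne_zero_atImInfty {N : ℕ} [NeZero N] {f : ℍ → ℂ} (hf : Mero.IsMod N f)
    (hne : ∃ z, f z ≠ 0) (γ : SL(2, ℤ)) : ∀ᶠ z in atImInfty, f (γ • z) ≠ 0 := by
  have hq : Tendsto (fun z : ℍ => Function.Periodic.qParam N (z : ℂ)) atImInfty (𝓝[≠] 0) :=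
    tendsto_qParam N
  filter_upwards [hq.eventually (eventually_cuspFn_ne_zero hf hne γ)] with z hz
  rwa [Mero.cuspFn_qParam (f := fun z => f (γ • z)) (hf.2 γ).1 z] at hz

theorem exists_ne_zero_of_ne_zero {N : ℕ} {v : Mero.ring N} (hv : v ≠ 0) :
    ∃ z, (v : ℍ → ℂ) z ≠ 0 := by
  by_contra h
  push Not at h
  exact hv (Subtype.ext (funext h))

/-- Division in the ring: a holomorphic quotient of two elements of the ring is in the ring. -/
theorem isMod_of_mul_eq {N : ℕ} [NeZero N] {u v g : ℍ → ℂ} (hu : Mero.IsMod N u)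
    (hv : Mero.IsMod N v) (hv0 : ∃ z, v z ≠ 0) (hg : MDifferentiable 𝓘(ℂ) 𝓘(ℂ) g)
    (huv : ∀ z, u z = g z * v z) : Mero.IsMod N g := by
  refine ⟨JN.holo_iff_mdiff.mpr hg, fun γ => ⟨fun z => ?_, ?_⟩⟩
  · -- periodicity
    have hT : ∀ w : ℍ, (γ * ModularGroup.T ^ (N : ℤ)) • w = γ • ((N : ℝ) +ᵥ w) := by
      intro w
      rw [mul_smul, modular_T_zpow_smul]
      simp
    have hD1 : MDifferentiable 𝓘(ℂ) 𝓘(ℂ) (fun w : ℍ => g (γ • ((N : ℝ) +ᵥ w))) := by
      have := JN.holo_iff_mdiff.mp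
        (Mero.holo_comp_smul (JN.holo_iff_mdiff.mpr hg) (γ * ModularGroup.T ^ (N : ℤ)))
      simpa only [hT] using this
    have hD2 : MDifferentiable 𝓘(ℂ) 𝓘(ℂ) (fun w : ℍ => g (γ • w)) :=
      JN.holo_iff_mdiff.mp (Mero.holo_comp_smul (JN.holo_iff_mdiff.mpr hg) γ)
    have hV : MDifferentiable 𝓘(ℂ) 𝓘(ℂ) (fun w : ℍ => v (γ • w)) :=
      JN.holo_iff_mdiff.mp (Mero.holo_comp_smul hv.1 γ)
    have hmul : ((fun w : ℍ => g (γ • ((N : ℝ) +ᵥ w))) - (fun w : ℍ => g (γ • w))) *
        (fun w : ℍ => v (γ • w)) = 0 := by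
      funext w
      have e1 := huv (γ • ((N : ℝ) +ᵥ w))
      have e2 := huv (γ • w)
      have e3 := (hu.2 γ).1 w
      have e4 := (hv.2 γ).1 w
      simp only [Pi.mul_apply, Pi.sub_apply, Pi.zero_apply]
      rw [e3, e2, e4] at e1
      linear_combination -e1
    rcases (UpperHalfPlane.mul_eq_zero_iff (hD1.sub hD2) hV).mp hmul with h3 | h3
    · have := congrFun h3 z
      simpa [sub_eq_zero] using this
    · exfalso
      obtain ⟨w, hw⟩ := hv0
      apply hw
      have := congrFun h3 (γ⁻¹ • w)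
      simpa using this
  · -- meromorphy at the cusp
    have hmer : MeromorphicAt (fun q => Mero.cuspFn N (fun z => u (γ • z)) q /
        Mero.cuspFn N (fun z => v (γ • z)) q) 0 := (hu.2 γ).2.div (hv.2 γ).2
    refine hmer.congr ?_
    filter_upwards [eventually_cuspFn_ne_zero hv hv0 γ] with q hq
    simp only [Mero.cuspFn] at hq ⊢
    rw [huv, mul_div_assoc, div_self hq, mul_one]

/-- Division lemma in the ring: if `u` satisfies a monic homogeneous equation over the ring
relative to `v ≠ 0`, then `v` divides `u`. -/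
theorem exists_mul_eq {N : ℕ} [NeZero N] {μ : ℕ} (u v : Mero.ring N) (hv : v ≠ 0)
    (c : Fin μ → Mero.ring N)
    (h : u ^ μ + ∑ m : Fin μ, c m * u ^ (μ - 1 - (m : ℕ)) * v ^ ((m : ℕ) + 1) = 0) :
    ∃ g : Mero.ring N, u = g * v := by
  have hv0 := exists_ne_zero_of_ne_zero hv
  obtain ⟨g, hg, hgv, -⟩ := Division.exists_holo_quotient_upperHalfPlane
    (u : ℍ → ℂ) (v : ℍ → ℂ) (fun m => (c m : ℍ → ℂ))
    (JN.holo_iff_mdiff.mp u.2.1) (JN.holo_iff_mdiff.mp v.2.1)
    (fun m => (JN.holo_iff_mdiff.mp (c m).2.1).continuous) hv0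
    (fun z => by
      have := congrFun (congrArg Subtype.val h) z
      simpa using this)
  exact ⟨⟨g, isMod_of_mul_eq u.2 v.2 hv0 hg hgv⟩, Subtype.ext (funext hgv)⟩

/-- **NORMAL**: the ring `Mero.ring N` is integrally closed. -/
instance instIsIntegrallyClosed (N : ℕ) [NeZero N] : IsIntegrallyClosed (Mero.ring N) := by
  refine (isIntegrallyClosed_iff (FractionRing (Mero.ring N))).mpr ?_
  intro x hx
  obtain ⟨u, v, hv, rfl⟩ := IsFractionRing.div_surjective (A := Mero.ring N) x
  have hv0 : v ≠ 0 := nonZeroDivisors.ne_zero hv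
  obtain ⟨p, hmonic, hp⟩ := hx
  set K := FractionRing (Mero.ring N) with hK
  set a : K := algebraMap (Mero.ring N) K u with ha
  set b : K := algebraMap (Mero.ring N) K v with hb
  have hb0 : b ≠ 0 := by
    rw [hb]
    exact (map_ne_zero_iff _ (IsFractionRing.injective (Mero.ring N) K)).mpr hv0
  set μ := p.natDegree with hμ
  have key : u ^ μ + ∑ m : Fin μ, p.coeff (μ - 1 - (m : ℕ)) * u ^ (μ - 1 - (m : ℕ)) *
      v ^ ((m : ℕ) + 1) = 0 := by
    apply IsFractionRing.injective (Mero.ring N) K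
    rw [map_zero, map_add, map_pow, map_sum]
    simp only [map_mul, map_pow]
    rw [Polynomial.eval₂_eq_sum_range, Finset.sum_range_succ, ← hμ,
      show p.coeff μ = 1 from hmonic, map_one, one_mul] at hp
    have h2 : (∑ i ∈ Finset.range μ, algebraMap (Mero.ring N) K (p.coeff i) * (a / b) ^ i) * b ^ μ
        + a ^ μ = 0 := by
      have := congrArg (fun t => t * b ^ μ) hp
      simp only [zero_mul, add_mul] at this
      rw [div_pow, div_mul_cancel₀ _ (pow_ne_zero _ hb0)] at this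
      exact this
    rw [Fin.sum_univ_eq_sum_range (fun m => algebraMap (Mero.ring N) K (p.coeff (μ - 1 - m)) *
      a ^ (μ - 1 - m) * b ^ (m + 1)) μ,
      ← Finset.sum_range_reflect]
    rw [add_comm, ← h2]
    congr 1
    rw [Finset.sum_mul]
    refine Finset.sum_congr rfl fun i hi => ?_
    have hi' : i < μ := Finset.mem_range.mp hi
    have e1 : μ - 1 - (μ - 1 - i) = i := by omega
    have e2 : μ - 1 - i + 1 = μ - i := by omega
    rw [e1, e2, div_pow, mul_assoc, mul_assoc]
    congr 1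
    have e3 : b ^ μ = b ^ i * b ^ (μ - i) := by
      rw [← pow_add]
      congr 1
      omega
    rw [e3, ← mul_assoc, div_mul_cancel₀ _ (pow_ne_zero i hb0)]
  obtain ⟨g, hg⟩ := exists_mul_eq u v hv0 (fun m => p.coeff (μ - 1 - (m : ℕ))) key
  refine ⟨g, ?_⟩
  rw [eq_div_iff hb0, hb, ha, ← map_mul, hg]

end Fermat.Agent.S20.LB.Normal
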